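import Fermat.Agent.FFDifferential.RiemannRoch

/-!
# The canonical divisor of a Kähler differential and the genus

For a function field `F/K` (`K` algebraically closed of characteristic zero): every nonzero
differential has a divisor `div ω`, of degree `2g - 2`, with `ℓ(D) - ℓ(div ω - D) = deg D + 1 - g`
(`g = genusFF`); the Prelude `genus` equals `genusFF`; the holomorphic differentials have
dimension `g`.
-/

set_option autoImplicit false

noncomputable section

open AlgebraicCurve Polynomial IntermediateField KaehlerDifferential FLTAgent.FFRiemannRoch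
  FLTAgent.FFBasic

namespace FLTAgent.FFDifferential

variable {K F : Type*} [Field K] [Field F] [Algebra K F] [IsFunctionField K F]
  [IsAlgClosed K] [CharZero K]

/-- The differential of a nonconstant function is nonzero. -/
lemma D_ne_zero_of_transcendental {x : F} (hx : Transcendental K x) :
    KaehlerDifferential.D K F x ≠ 0 := by
  obtain ⟨w, hw⟩ := exists_place_ord_neg hx
  exact D_ne_zero_of_ord_ne_zero w (ord_cast_ne_zero hw.ne)

/-- Every differential is `c dx`. -/
lemma exists_eq_smul_dx {x : F} (hx : Transcendental K x) (ω : Ω[F⁄K]) :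
    ∃ c : F, ω = c • KaehlerDifferential.D K F x :=
  (exists_smul_eq_of_ne_zero (D_ne_zero_of_transcendental hx) ω).imp fun _ h => h.symm

instance instHasCanonicalDivisor : HasCanonicalDivisor (K := K) (F := F) where
  exists_divisor ω hω := by
    obtain ⟨x, hx, hfin⟩ := IsFunctionField.exists_transcendental (K := K) (F := F)
    obtain ⟨c, rfl⟩ := exists_eq_smul_dx hx ω
    have hc : c ≠ 0 := fun h => hω (by rw [h, zero_smul])
    refine ⟨divOf c + dxDivisor hx, fun v => ?_⟩
    rw [Finsupp.add_apply, divOf_apply, dxDivisor_apply,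
      ordDifferential_smul_eq v hc (D_ne_zero_of_transcendental hx)]

variable [hC : HasCanonicalDivisor (K := K) (F := F)]

lemma canonicalDivisorOf_eq_add_dxDivisor {x : F} (hx : Transcendental K x)
    [FiniteDimensional K⟮x⟯ F] {ω : Ω[F⁄K]} (hω : ω ≠ 0) :
    ∃ c : F, c ≠ 0 ∧ ω = c • KaehlerDifferential.D K F x ∧
      canonicalDivisorOf hω = divOf c + dxDivisor hx := by
  obtain ⟨c, hc⟩ := exists_eq_smul_dx hx ω
  have hc0 : c ≠ 0 := fun h => hω (by rw [hc, h, zero_smul])
  refine ⟨c, hc0, hc, Finsupp.ext fun v => ?_⟩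
  rw [Finsupp.add_apply, divOf_apply, dxDivisor_apply, canonicalDivisorOf_apply, hc,
    ordDifferential_smul_eq v hc0 (D_ne_zero_of_transcendental hx)]

/-- The divisor of a nonzero differential has degree `2g - 2`. -/
theorem degree_canonicalDivisorOf {ω : Ω[F⁄K]} (hω : ω ≠ 0) :
    Divisor.degree (canonicalDivisorOf hω) = 2 * (genusFF K F : ℤ) - 2 := by
  obtain ⟨x, hx, hfin⟩ := IsFunctionField.exists_transcendental (K := K) (F := F)
  obtain ⟨c, -, -, h⟩ := canonicalDivisorOf_eq_add_dxDivisor hx hω
  rw [h, map_add, degree_divOf, degree_dxDivisor hx, zero_add]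

/-- `ℓ(div ω) = g`. -/
theorem ell_canonicalDivisorOf {ω : Ω[F⁄K]} (hω : ω ≠ 0) :
    ell K F (canonicalDivisorOf hω) = genusFF K F := by
  obtain ⟨x, hx, hfin⟩ := IsFunctionField.exists_transcendental (K := K) (F := F)
  obtain ⟨c, hc, -, h⟩ := canonicalDivisorOf_eq_add_dxDivisor hx hω
  rw [h, add_comm, ell_add_divOf _ hc]
  exact_mod_cast ell_dxDivisor hx

/-- **Riemann–Roch** with the divisor of a differential. -/
theorem riemann_roch_canonicalDivisorOf {ω : Ω[F⁄K]} (hω : ω ≠ 0) (D : Divisor K F) :
    (ell K F D : ℤ) - ell K F (canonicalDivisorOf hω - D)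
      = Divisor.degree D + 1 - genusFF K F := by
  obtain ⟨x, hx, hfin⟩ := IsFunctionField.exists_transcendental (K := K) (F := F)
  obtain ⟨c, hc, -, h⟩ := canonicalDivisorOf_eq_add_dxDivisor hx hω
  rw [h, show divOf c + dxDivisor hx - D = dxDivisor hx - D + divOf c by abel,
    ell_add_divOf _ hc]
  exact riemann_roch_dxDivisor hx D

/-- Serre duality in numerical form: `h¹(D) = ℓ(div ω - D)`. -/
theorem h1_eq_ell_canonicalDivisorOf_sub {ω : Ω[F⁄K]} (hω : ω ≠ 0) (D : Divisor K F) :
    h1 K F D = ell K F (canonicalDivisorOf hω - D) := by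
  have h₁ := riemann_roch_canonicalDivisorOf hω D
  have h₂ := riemann_roch_isAlgClosed (K := K) (F := F) D
  omega

omit [IsFunctionField K F] [IsAlgClosed K] [CharZero K] in
lemma genus_eq_of_degree {g : ℕ}
    (h : ∀ {ω : Ω[F⁄K]} (hω : ω ≠ 0), Divisor.degree (canonicalDivisorOf hω) = 2 * (g : ℤ) - 2)
    (hne : ∃ ω : Ω[F⁄K], ω ≠ 0) : AlgebraicCurve.genus K F = g := by
  unfold AlgebraicCurve.genus
  rw [dif_pos hne, h hne.choose_spec]
  omega

/-- The Prelude's genus is `genusFF`. -/
theorem genus_eq_genusFF : AlgebraicCurve.genus K F = genusFF K F :=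
  genus_eq_of_degree (fun hω => degree_canonicalDivisorOf hω) (exists_ne 0)

omit hC in
/-- Riemann–Hurwitz for a function: `2g - 2 = Σ ord_w (dx)`. -/
theorem two_mul_genusFF_sub_two {x : F} (hx : Transcendental K x) (S : Finset (Place K F))
    (hS : ∀ w, w ∉ S → w.ordDifferential (KaehlerDifferential.D K F x) = 0) :
    2 * (genusFF K F : ℤ) - 2
      = ∑ w ∈ S, w.ordDifferential (KaehlerDifferential.D K F x) := by
  have := IsFunctionField.finiteDimensional_adjoin (K := K) (F := F) hx
  rw [← degree_dxDivisor hx]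
  show (dxDivisor hx).sum (fun v n => (AddMonoidHom.mulRight (v.deg : ℤ)) n) = _
  rw [Finsupp.sum_of_support_subset _ (s := S) (fun w hw => by
    by_contra h
    exact (Finsupp.mem_support_iff.1 hw) (hS w h)) _ (fun _ _ => map_zero _)]
  refine Finset.sum_congr rfl fun w _ => ?_
  rw [AddMonoidHom.mulRight_apply, dxDivisor_apply, place_deg_eq_one w, Nat.cast_one, mul_one]

omit hC

variable (K F) in
/-- The holomorphic differentials. -/
def holomorphicDifferentials : Submodule K Ω[F⁄K] where
  carrier := {ω | ∀ v : Place K F, 0 ≤ v.ordDifferential ω}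
  zero_mem' := fun v => by rw [ordDifferential_zero]
  add_mem' := by
    intro a b ha hb v
    obtain ⟨π, hπ⟩ := IsDiscreteValuationRing.exists_irreducible v.toValuationSubring
    have h1 := ha v
    have h2 := hb v
    rw [ordDifferential_eq_order hπ] at h1 h2 ⊢
    rw [map_add]
    rcases eq_or_ne (diffSeries hπ a + diffSeries hπ b) 0 with h | h
    · rw [h, HahnSeries.order_zero]
    · exact le_trans (le_min h1 h2) (HahnSeries.min_order_le_order_add h)
  smul_mem' := by
    intro r a ha v
    rw [← algebraMap_smul F r a]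
    rcases eq_or_ne r 0 with rfl | hr
    · rw [map_zero, zero_smul, ordDifferential_zero]
    rcases eq_or_ne a 0 with rfl | ha0
    · rw [smul_zero, ordDifferential_zero]
    rw [ordDifferential_smul_eq v (by simpa using hr) ha0, ord_algebraMap, zero_add]
    exact ha v

/-- The holomorphic differentials have dimension `g`. -/
theorem finrank_holomorphicDifferentials :
    Module.finrank K (holomorphicDifferentials K F) = genusFF K F := by
  obtain ⟨ω₀, hω₀⟩ := exists_ne (0 : Ω[F⁄K])
  rw [← ell_canonicalDivisorOf hω₀]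
  let Φ : F →ₗ[K] Ω[F⁄K] := (LinearMap.toSpanSingleton F Ω[F⁄K] ω₀).restrictScalars K
  have hinj : Function.Injective Φ := smul_left_injective F hω₀
  have hmap : (riemannRochSpace (canonicalDivisorOf hω₀)).map Φ
      = holomorphicDifferentials K F := by
    ext ω
    constructor
    · rintro ⟨f, hf, rfl⟩ v
      rcases eq_or_ne f 0 with rfl | hf0
      · simp [Φ]
      show 0 ≤ v.ordDifferential (f • ω₀)
      rw [ordDifferential_smul_eq v hf0 hω₀]
      have := ((mem_riemannRochSpace_iff.1 hf) v).resolve_left hf0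
      rw [canonicalDivisorOf_apply] at this
      omega
    · intro hω
      obtain ⟨f, rfl⟩ := exists_smul_eq_of_ne_zero hω₀ ω
      refine ⟨f, mem_riemannRochSpace_iff.2 fun v => or_iff_not_imp_left.2 fun hf0 => ?_, rfl⟩
      have := hω v
      rw [ordDifferential_smul_eq v hf0 hω₀] at this
      rw [canonicalDivisorOf_apply]
      omega
  rw [← hmap]
  exact (Submodule.equivMapOfInjective Φ hinj _).finrank_eq.symm

instance : Module.Finite K (holomorphicDifferentials K F) := by
  rcases Nat.eq_zero_or_pos (genusFF K F) with h | h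
  · obtain ⟨ω₀, hω₀⟩ := exists_ne (0 : Ω[F⁄K])
    suffices holomorphicDifferentials K F = ⊥ by rw [this]; infer_instance
    refine (Submodule.eq_bot_iff _).2 fun ω hω => ?_
    by_contra hω0
    have hmem : (1 : F) ∈ riemannRochSpace (canonicalDivisorOf hω0) :=
      mem_riemannRochSpace_iff.2 fun v => Or.inr (by
        rw [canonicalDivisorOf_apply, v.ord_one]
        have := hω v
        omega)
    have h0 := ell_canonicalDivisorOf hω0
    rw [h, ell, Submodule.finrank_eq_zero] at h0
    rw [h0, Submodule.mem_bot] at hmem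
    exact one_ne_zero hmem
  · exact Module.finite_of_finrank_pos (by rw [finrank_holomorphicDifferentials]; exact h)

end FLTAgent.FFDifferential
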