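import Fermat.Agent.FFDifferential.ReducedBasis
import Fermat.Agent.FFRiemannRoch.FunctionField
import Fermat.Agent.FFRiemannRoch.Duality
import Fermat.Agent.FFBasic.CurveOver
import Fermat.Agent.FFBasic.Discrete

/-!
# The trace criterion for differentials `z dx`

If `b` is a reduced basis for `D`, then `ord_w z + ord_w (dx) ≥ D w - k P w` at every place iff
every `Tr (z bᵢ)` is a polynomial `sᵢ(x)` with `deg sᵢ + 2 ≤ dᵢ + k`.
-/

set_option autoImplicit false

noncomputable section

open AlgebraicCurve Polynomial IntermediateField FLTAgent.FFRiemannRoch FLTAgent.FFBasic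

namespace FLTAgent.FFDifferential

variable {K F : Type*} [Field K] [Field F] [Algebra K F] [IsFunctionField K F]

lemma discrete_of_isFunctionField : Discrete K F :=
  fun W hK hW => (placeOfValuationSubring W hK hW).isPrincipalIdealRing'

variable [IsAlgClosed K] [CharZero K]

omit [IsAlgClosed K] in
lemma ord_cast_ne_zero {n : ℤ} (hn : n ≠ 0) : ((n : ℤ) : K) ≠ 0 := Int.cast_ne_zero.2 hn

/-- `ord (dx)` at a place over `x = c`. -/
lemma ordDifferential_dx_of_pos (w : Place K F) {x : F} {c : K}
    (hw : 0 < w.ord (x - algebraMap K F c)) :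
    w.ordDifferential (KaehlerDifferential.D K F x) = w.ord (x - algebraMap K F c) - 1 := by
  rw [show KaehlerDifferential.D K F x = KaehlerDifferential.D K F (x - algebraMap K F c) by
    rw [map_sub, Derivation.map_algebraMap, sub_zero]]
  exact ordDifferential_D w (ord_cast_ne_zero hw.ne')

/-- `ord (dx)` at a pole of `x`. -/
lemma ordDifferential_dx_of_neg (w : Place K F) {x : F} (hw : w.ord x < 0) :
    w.ordDifferential (KaehlerDifferential.D K F x) = w.ord x - 1 :=
  ordDifferential_D w (ord_cast_ne_zero hw.ne)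

variable {x : F} (hx : Transcendental K x) [FiniteDimensional K⟮x⟯ F]

omit [IsFunctionField K F] [IsAlgClosed K] [CharZero K] [FiniteDimensional K⟮x⟯ F] in
lemma trace_gen_zpow_mul (n : ℤ) (y : F) :
    Algebra.trace K⟮x⟯ F (x ^ n * y)
      = AdjoinSimple.gen K x ^ n * Algebra.trace K⟮x⟯ F y := by
  have h : x ^ n = algebraMap K⟮x⟯ F (AdjoinSimple.gen K x ^ n) := by
    rw [map_zpow₀, AdjoinSimple.algebraMap_gen]
  rw [h, ← Algebra.smul_def, map_smul, smul_eq_mul]

include hx in
omit [FiniteDimensional K⟮x⟯ F] in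
/-- A rational function regular at all finite points is a polynomial. -/
lemma exists_poly_of_regular (r : K⟮x⟯)
    (hr : ∀ w : Place K F, 0 ≤ w.ord x → algebraMap K⟮x⟯ F r ∈ w.toValuationSubring) :
    ∃ s : K[X], r = ratEval x s := by
  obtain ⟨p, q, hq, rfl⟩ := exists_ratEval_div r
  induction hn : q.natDegree generalizing p q with
  | zero =>
    obtain ⟨a, rfl⟩ := natDegree_eq_zero.1 hn
    have ha : a ≠ 0 := by simpa using hq
    refine ⟨Polynomial.C a⁻¹ * p, ?_⟩
    rw [div_eq_iff (ratEval_ne_zero hx hq), ← map_mul]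
    congr 1
    rw [mul_right_comm, ← map_mul Polynomial.C, inv_mul_cancel₀ ha, map_one, one_mul]
  | succ n ih =>
    obtain ⟨c, hc⟩ := IsAlgClosed.exists_root q (by
      rw [degree_eq_natDegree hq, hn]
      exact_mod_cast n.succ_ne_zero)
    rcases eq_or_ne p 0 with rfl | hp
    · exact ⟨0, by simp⟩
    obtain ⟨q', rfl⟩ := dvd_iff_isRoot.2 hc
    have hq' : q' ≠ 0 := right_ne_zero_of_mul hq
    have hxc : Transcendental K (x - algebraMap K F c) := fun h => hx (by
      have h2 := h.add (isAlgebraic_algebraMap c)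
      rwa [sub_add_cancel] at h2)
    obtain ⟨w, hw⟩ := exists_place_ord_pos hxc
    have hwx : 0 ≤ w.ord x := by
      by_contra h
      have hx0 : x ≠ 0 := fun h0 => hx (h0 ▸ isAlgebraic_zero)
      have h1 := (ord_add_eq_of_lt w (f := x) (g := -algebraMap K F c) hx0
        (Or.inr (by rw [← map_neg, ord_algebraMap]; omega))).2
      rw [← sub_eq_add_neg] at h1
      omega
    have hreg := hr w hwx
    have hne : algebraMap K⟮x⟯ F (ratEval x p / ratEval x ((X - C c) * q')) ≠ 0 := by
      rw [ne_eq, map_eq_zero, div_eq_zero_iff, not_or]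
      exact ⟨ratEval_ne_zero hx hp, ratEval_ne_zero hx hq⟩
    rw [← ord_nonneg_iff w hne, ord_algebraMap_of_pos hx w hw hp hq] at hreg
    have h1 : 1 ≤ rootMultiplicity c ((X - C c) * q') := (rootMultiplicity_pos hq).2 hc
    have h2 : 0 < p.rootMultiplicity c := by
      have := nonneg_of_mul_nonneg_left hreg hw
      omega
    obtain ⟨p', rfl⟩ := dvd_iff_isRoot.2 ((rootMultiplicity_pos hp).1 h2)
    have heq : ratEval x ((X - C c) * p') / ratEval x ((X - C c) * q')
        = ratEval x p' / ratEval x q' := by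
      rw [map_mul, map_mul, mul_div_mul_left _ _ (ratEval_ne_zero hx (X_sub_C_ne_zero c))]
    rw [heq] at hr ⊢
    refine ih p' q' hq' hr ?_
    rw [natDegree_mul (X_sub_C_ne_zero c) hq', natDegree_X_sub_C] at hn
    omega

variable {D : Divisor K F}
  (b : Module.Basis (Fin (Module.finrank K⟮x⟯ F)) K⟮x⟯ F)
  (d : Fin (Module.finrank K⟮x⟯ F) → ℕ)

/-- `(z dx) ≥ D - kP`. -/
def DiffBound (x : F) (D : Divisor K F) (k : ℤ) (z : F) : Prop :=
  ∀ w : Place K F, z = 0 ∨
    D w - w.ordDifferential (KaehlerDifferential.D K F x) - k * poleDiv (K := K) x w ≤ w.ord z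

/-- The trace conditions. -/
def TraceBound (x : F) [FiniteDimensional K⟮x⟯ F]
    (b : Module.Basis (Fin (Module.finrank K⟮x⟯ F)) K⟮x⟯ F)
    (d : Fin (Module.finrank K⟮x⟯ F) → ℕ) (k : ℤ) (z : F) : Prop :=
  ∀ i, ∃ s : K[X], Algebra.trace K⟮x⟯ F (z * b i) = ratEval x s ∧
    (s = 0 ∨ (s.natDegree : ℤ) + 2 ≤ d i + k)

variable {b d}

include hx in
/-- If `(z dx) ≥ D - kP` then the traces are polynomials of bounded degree. -/
theorem traceBound_of_diffBound (hb : ∀ i, b i ∈ filtL x D (d i)) {k : ℤ} {z : F}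
    (hz : DiffBound x D k z) : TraceBound x b d k z := by
  have hx0 : x ≠ 0 := fun h => hx (h ▸ isAlgebraic_zero)
  intro i
  have hbi := mem_filtL.1 (hb i)
  set r := Algebra.trace K⟮x⟯ F (z * b i) with hr
  have hfin : ∀ w : Place K F, 0 ≤ w.ord x → algebraMap K⟮x⟯ F r ∈ w.toValuationSubring := by
    intro w hw
    obtain ⟨c, hc⟩ := exists_const_sub_ord_pos w hw hx
    rw [← Place.mem_restrict_iff]
    rcases trace_ord_nonneg discrete_of_isFunctionField (w.restrict K⟮x⟯) (z * b i)
      (fun w' hw' => by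
        have hc' := pos_of_restrict_eq hw' hc
        rcases eq_or_ne z 0 with hz0 | hz0
        · simp [hz0]
        have h1 := (hz w').resolve_left hz0
        have h2 := (hbi w').resolve_left (b.ne_zero i)
        right
        rw [w'.ord_mul hz0 (b.ne_zero i), ramificationIndex_of_pos hx w' hc']
        rw [ordDifferential_dx_of_pos w' hc'] at h1
        have hP : poleDiv (K := K) x w' = 0 := poleDiv_eq_of_nonneg (by
          by_contra h
          have h3 := (ord_add_eq_of_lt w' (f := x) (g := -algebraMap K F c) hx0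
            (Or.inr (by rw [← map_neg, ord_algebraMap]; omega))).2
          rw [← sub_eq_add_neg] at h3
          omega)
        rw [hP, mul_zero] at h1 h2
        omega) with h | h
    · rw [hr, h]; exact zero_mem _
    · rcases eq_or_ne r 0 with h0 | h0
      · rw [h0]; exact zero_mem _
      · exact (ord_nonneg_iff _ h0).1 h
  obtain ⟨s, hs⟩ := exists_poly_of_regular hx r hfin
  refine ⟨s, hs, ?_⟩
  rcases eq_or_ne s 0 with hs0 | hs0
  · exact Or.inl hs0
  right
  obtain ⟨w, hw⟩ := exists_place_ord_neg hx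
  have hz0 : z ≠ 0 := by
    rintro rfl
    rw [hr, zero_mul, map_zero] at hs
    exact ratEval_ne_zero hx hs0 hs.symm
  have h := trace_ord_nonneg discrete_of_isFunctionField (w.restrict K⟮x⟯)
    (x ^ (2 - k - (d i : ℤ)) * (z * b i)) (fun w' hw' => by
      have hw'x := neg_of_restrict_eq hw' hw
      have h1 := (hz w').resolve_left hz0
      have h2 := (hbi w').resolve_left (b.ne_zero i)
      right
      rw [w'.ord_mul (zpow_ne_zero _ hx0) (mul_ne_zero hz0 (b.ne_zero i)),
        w'.ord_mul hz0 (b.ne_zero i), w'.ord_zpow, ramificationIndex_of_neg hx w' hw'x]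
      rw [ordDifferential_dx_of_neg w' hw'x, poleDiv_eq_of_neg hw'x] at h1
      rw [poleDiv_eq_of_neg hw'x] at h2
      linarith)
  rw [trace_gen_zpow_mul, ← hr, hs] at h
  have hne : AdjoinSimple.gen K x ^ (2 - k - (d i : ℤ)) * ratEval x s ≠ 0 := by
    refine mul_ne_zero (zpow_ne_zero _ ?_) (ratEval_ne_zero hx hs0)
    intro h0
    exact hx0 (by rw [← AdjoinSimple.algebraMap_gen K x, h0, map_zero])
  have h' := h.resolve_left hne
  rw [ord_nonneg_iff _ hne, Place.mem_restrict_iff, ← ord_nonneg_iff _ (by simpa using hne),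
    map_mul, map_zpow₀, coe_ratEval, AdjoinSimple.algebraMap_gen,
    w.ord_mul (zpow_ne_zero _ hx0) (aeval_ne_zero_of_transcendental hx hs0), w.ord_zpow,
    (ord_aeval_of_neg w hw hs0).2, ← add_mul] at h'
  nlinarith

include hx in
/-- If the traces are polynomials of bounded degree then `(z dx) ≥ D - kP`. -/
theorem diffBound_of_traceBound
    (hspan : ∀ m, ∀ z ∈ filtL x D m, ∃ p : Fin (Module.finrank K⟮x⟯ F) → K[X],
      (∀ i, PolyBound K (p i) (d i) m) ∧ z = ∑ i, aeval x (p i) * b i)
    {k : ℤ} {z : F} (hz : TraceBound x b d k z) : DiffBound x D k z := by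
  have hx0 : x ≠ 0 := fun h => hx (h ▸ isAlgebraic_zero)
  choose s hs hsd using hz
  intro w
  rcases eq_or_ne z 0 with hz0 | hz0
  · exact Or.inl hz0
  right
  by_contra hlt
  push Not at hlt
  rcases lt_or_ge (w.ord x) 0 with hw | hw
  · rw [ordDifferential_dx_of_neg w hw, poleDiv_eq_of_neg hw] at hlt
    have hz' : x ^ (2 - k) * z ≠ 0 := mul_ne_zero (zpow_ne_zero _ hx0) hz0
    obtain ⟨u, hu, hu'⟩ := exists_trace_pole discrete_of_isFunctionField
      (w.restrict K⟮x⟯) _ hz' (fun w' => -(D w')) w rfl (by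
        rw [w.ord_mul (zpow_ne_zero _ hx0) hz0, w.ord_zpow, ramificationIndex_of_neg hx w hw]
        linarith)
    have hu0 : u ≠ 0 := by
      rintro rfl
      simp at hu'
    obtain ⟨q, hq, -, hqm⟩ := exists_clear hx D hu0
    obtain ⟨p, hp, hpu⟩ := hspan q.natDegree _ (hqm q.natDegree (fun w' hw' => by
      have := (hu w' (by
        refine Place.ext (SetLike.ext fun r => ?_)
        rw [Place.mem_restrict_iff, Place.mem_restrict_iff]
        rcases eq_or_ne r 0 with rfl | hr
        · simp
        obtain ⟨a, c, hc, rfl⟩ := exists_ratEval_div r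
        have ha : a ≠ 0 := by rintro rfl; simp at hr
        have hne : algebraMap K⟮x⟯ F (ratEval x a / ratEval x c) ≠ 0 := by simpa using hr
        rw [← ord_nonneg_iff w hne, ← ord_nonneg_iff w' hne, map_div₀, coe_ratEval, coe_ratEval,
          div_eq_mul_inv, w.ord_mul (ord_aeval_of_neg w hw ha).1
            (inv_ne_zero (ord_aeval_of_neg w hw hc).1),
          w'.ord_mul (ord_aeval_of_neg w' hw' ha).1
            (inv_ne_zero (ord_aeval_of_neg w' hw' hc).1),
          w.ord_inv, w'.ord_inv, (ord_aeval_of_neg w hw ha).2, (ord_aeval_of_neg w hw hc).2,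
          (ord_aeval_of_neg w' hw' ha).2, (ord_aeval_of_neg w' hw' hc).2,
          ← sub_eq_add_neg, ← sub_eq_add_neg, ← sub_mul, ← sub_mul]
        constructor <;> intro h
        · nlinarith
        · nlinarith)).resolve_left hu0
      linarith))
    -- the trace of `x^(2-k) z u` is regular at infinity
    have key : Algebra.trace K⟮x⟯ F (x ^ (2 - k) * z * u)
        ∈ (w.restrict K⟮x⟯).toValuationSubring := by
      have hu_eq : x ^ (2 - k) * z * u
          = ∑ i, algebraMap K⟮x⟯ F (AdjoinSimple.gen K x ^ (2 - k) * ratEval x (p i)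
              / ratEval x q) * (z * b i) := by
        simp only [map_div₀, map_mul, map_zpow₀, coe_ratEval, AdjoinSimple.algebraMap_gen]
        have hq0 := aeval_ne_zero_of_transcendental hx hq
        rw [show x ^ (2 - k) * z * u = x ^ (2 - k) * z * (aeval x q * u) / aeval x q by
          field_simp, hpu, Finset.mul_sum, Finset.sum_div]
        exact Finset.sum_congr rfl fun i _ => by ring
      rw [hu_eq, map_sum]
      refine sum_mem fun i _ => ?_
      rw [← Algebra.smul_def, map_smul, smul_eq_mul, hs, Place.mem_restrict_iff]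
      simp only [map_div₀, map_mul, map_zpow₀, coe_ratEval, AdjoinSimple.algebraMap_gen]
      rcases eq_or_ne (p i) 0 with hp0 | hp0
      · simp [hp0]
      rcases eq_or_ne (s i) 0 with hs0 | hs0
      · simp [hs0]
      have hpd := (polyBound_iff.1 (hp i)).resolve_left hp0
      have hsd' := (hsd i).resolve_left hs0
      have e1 := ord_aeval_of_neg w hw hp0
      have e2 := ord_aeval_of_neg w hw hs0
      have e3 := ord_aeval_of_neg w hw hq
      refine (ord_nonneg_iff w (mul_ne_zero (div_ne_zero
        (mul_ne_zero (zpow_ne_zero _ hx0) e1.1) e3.1) e2.1)).1 ?_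
      rw [div_eq_mul_inv, w.ord_mul (mul_ne_zero (mul_ne_zero (zpow_ne_zero _ hx0) e1.1)
          (inv_ne_zero e3.1)) e2.1,
        w.ord_mul (mul_ne_zero (zpow_ne_zero _ hx0) e1.1) (inv_ne_zero e3.1),
        w.ord_mul (zpow_ne_zero _ hx0) e1.1, w.ord_zpow, w.ord_inv, e1.2, e2.2, e3.2]
      nlinarith
    rcases eq_or_ne (Algebra.trace K⟮x⟯ F (x ^ (2 - k) * z * u)) 0 with h | h
    · rw [h] at hu'; simp at hu'
    · rw [← ord_nonneg_iff _ h] at key
      omega
  · obtain ⟨c, hc⟩ := exists_const_sub_ord_pos w hw hx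
    rw [ordDifferential_dx_of_pos w hc, poleDiv_eq_of_nonneg hw] at hlt
    obtain ⟨u, hu, hu'⟩ := exists_trace_pole discrete_of_isFunctionField
      (w.restrict K⟮x⟯) z hz0 (fun w' => -(D w')) w rfl (by
        rw [ramificationIndex_of_pos hx w hc]
        omega)
    have hu0 : u ≠ 0 := by
      rintro rfl
      simp at hu'
    obtain ⟨q, hq, hqc, hqm⟩ := exists_clear hx D hu0
    have hqc' := hqc c fun w' hw' => (hu w' (restrict_eq_of_pos hx hc hw')).resolve_left hu0
    classical
    obtain ⟨m, hm⟩ : ∃ m : ℕ, ∀ w' : Place K F, w'.ord x < 0 →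
        -(D w') - m * (-w'.ord x) ≤ w'.ord u + q.natDegree * w'.ord x := by
      let f : Place K F → ℤ := fun w' => |D w'| + |w'.ord u| + q.natDegree * |w'.ord x|
      refine ⟨(∑ w' ∈ (poleDiv (K := K) x).support, f w').toNat, fun w' hw' => ?_⟩
      have h1 := Finset.single_le_sum (f := f) (fun w _ => by simp only [f]; positivity)
        (show w' ∈ (poleDiv (K := K) x).support by
          rw [Finsupp.mem_support_iff, poleDiv_eq_of_neg hw']; omega)
      set S := ∑ w' ∈ (poleDiv (K := K) x).support, f w'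
      have h2 : S * 1 ≤ (S.toNat : ℤ) * (-w'.ord x) :=
        mul_le_mul (Int.self_le_toNat _) (by omega) zero_le_one (Int.natCast_nonneg _)
      simp only [f] at h1
      rw [abs_of_neg hw'] at h1
      have := neg_abs_le (D w')
      have := neg_abs_le (w'.ord u)
      linarith
    obtain ⟨p, hp, hpu⟩ := hspan m _ (hqm m hm)
    have hreg : ∀ a : K[X], algebraMap K⟮x⟯ F (ratEval x a) ∈ w.toValuationSubring := fun a => by
      rw [coe_ratEval]
      exact aeval_mem w.algebraMap_mem' ((ord_nonneg_iff w hx0).1 hw) a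
    have key : Algebra.trace K⟮x⟯ F (z * u) ∈ (w.restrict K⟮x⟯).toValuationSubring := by
      have hu_eq : z * u
          = ∑ i, algebraMap K⟮x⟯ F (ratEval x (p i) / ratEval x q) * (z * b i) := by
        simp only [map_div₀, coe_ratEval]
        have hq0 := aeval_ne_zero_of_transcendental hx hq
        rw [show z * u = z * (aeval x q * u) / aeval x q by field_simp, hpu, Finset.mul_sum,
          Finset.sum_div]
        exact Finset.sum_congr rfl fun i _ => by ring
      rw [hu_eq, map_sum]
      refine sum_mem fun i _ => ?_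
      rw [← Algebra.smul_def, map_smul, smul_eq_mul, hs, Place.mem_restrict_iff, map_mul,
        map_div₀, div_eq_mul_inv]
      refine mul_mem (mul_mem (hreg _) ?_) (hreg _)
      rw [coe_ratEval]
      have hq0 := aeval_ne_zero_of_transcendental hx hq
      refine (ord_nonneg_iff w (inv_ne_zero hq0)).1 ?_
      rw [w.ord_inv, ord_aeval_of_pos w hx hc hq, rootMultiplicity_eq_zero hqc']
      simp
    rcases eq_or_ne (Algebra.trace K⟮x⟯ F (z * u)) 0 with h | h
    · rw [h] at hu'; simp at hu'
    · rw [← ord_nonneg_iff _ h] at key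
      omega

end FLTAgent.FFDifferential
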