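import Fermat.Agent.FFDifferential.LaurentDeriv
import Fermat.Prelude.Def_AlgebraicCurve_IsCurveOver
import Fermat.Prelude.Def_AlgebraicCurve_CanonicalDivisor

/-!
# Laurent expansion at a rational place, and the order of a differential

For a place `v` of `F/K` (`K` algebraically closed, finite residue fields) and a choice of
uniformizer we construct the `K`-algebra embedding `F → K((X))`, and derive from it that the
differential of a uniformizer generates the Kähler differentials.
-/

set_option autoImplicit false

noncomputable section

open AlgebraicCurve IsLocalRing KaehlerDifferential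

namespace FLTAgent.FFDifferential

variable {K F : Type*} [Field K] [Field F] [Algebra K F]

section Expansion

variable [IsAlgClosed K] (v : Place K F) [v.FiniteResidue]

lemma algebraMap_residue_bijective :
    Function.Bijective (algebraMap K v.ResidueField) := by
  have : Module.Finite K v.ResidueField := Place.FiniteResidue.finite
  have : Algebra.IsIntegral K v.ResidueField := Algebra.IsIntegral.of_finite K v.ResidueField
  exact IsAlgClosed.algebraMap_bijective_of_isIntegral

/-- Evaluation at a rational place. -/
def resEval : v.toValuationSubring →+* K :=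
  ((RingEquiv.ofBijective (algebraMap K v.ResidueField)
    (algebraMap_residue_bijective v)).symm.toRingHom).comp
      (IsLocalRing.residue v.toValuationSubring)

lemma resEval_spec (a : v.toValuationSubring) :
    algebraMap K v.ResidueField (resEval v a) = IsLocalRing.residue _ a :=
  (RingEquiv.ofBijective (algebraMap K v.ResidueField)
    (algebraMap_residue_bijective v)).apply_symm_apply _

@[simp]
lemma resEval_algebraMap (c : K) : resEval v (algebraMap K _ c) = c := by
  apply (algebraMap K v.ResidueField).injective
  rw [resEval_spec]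
  rfl

lemma resEval_eq_zero_iff (a : v.toValuationSubring) :
    resEval v a = 0 ↔ a ∈ maximalIdeal v.toValuationSubring := by
  rw [← IsLocalRing.residue_eq_zero_iff, ← resEval_spec v a,
    map_eq_zero_iff _ (algebraMap K v.ResidueField).injective]

lemma resEval_ne_zero_iff (a : v.toValuationSubring) : resEval v a ≠ 0 ↔ IsUnit a := by
  rw [Ne, resEval_eq_zero_iff, mem_maximalIdeal, mem_nonunits_iff, not_not]

variable {v} {π : v.toValuationSubring} (hπ : Irreducible π)

include hπ in
lemma exists_shift (a : v.toValuationSubring) :
    ∃ b, a = algebraMap K _ (resEval v a) + π * b := by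
  have h : a - algebraMap K _ (resEval v a) ∈ maximalIdeal v.toValuationSubring := by
    rw [← resEval_eq_zero_iff, map_sub, resEval_algebraMap, sub_self]
  rw [hπ.maximalIdeal_eq, Ideal.mem_span_singleton'] at h
  obtain ⟨b, hb⟩ := h
  exact ⟨b, by rw [mul_comm, hb]; ring⟩

/-- `a ↦ (a - a(v)) / π`. -/
def shift (a : v.toValuationSubring) : v.toValuationSubring := (exists_shift hπ a).choose

lemma shift_spec (a : v.toValuationSubring) :
    a = algebraMap K _ (resEval v a) + π * shift hπ a :=
  (exists_shift hπ a).choose_spec

lemma shift_unique {a b : v.toValuationSubring} {c : K} (h : a = algebraMap K _ c + π * b) :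
    resEval v a = c ∧ shift hπ a = b := by
  have hπ0 : resEval v π = 0 :=
    (resEval_eq_zero_iff v π).2 ((mem_maximalIdeal _).2 hπ.not_isUnit)
  have hc : resEval v a = c := by rw [h, map_add, map_mul, hπ0, resEval_algebraMap]; ring
  refine ⟨hc, mul_left_cancel₀ hπ.ne_zero ?_⟩
  have := shift_spec hπ a
  rw [hc] at this
  exact add_left_cancel (this.symm.trans h)

lemma shift_add (a b : v.toValuationSubring) :
    shift hπ (a + b) = shift hπ a + shift hπ b :=
  (shift_unique hπ (c := resEval v a + resEval v b) (by
    conv_lhs => rw [shift_spec hπ a, shift_spec hπ b]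
    rw [map_add]; ring)).2

lemma shift_mul (a b : v.toValuationSubring) :
    shift hπ (a * b) = algebraMap K _ (resEval v a) * shift hπ b + shift hπ a * b :=
  (shift_unique hπ (c := resEval v a * resEval v b) (by
    rw [map_mul]
    linear_combination b * (shift_spec hπ a) +
      algebraMap K _ (resEval v a) * (shift_spec hπ b))).2

lemma shift_algebraMap (c : K) :
    shift hπ (algebraMap K v.toValuationSubring c) = 0 :=
  (shift_unique hπ (c := c) (by rw [mul_zero, add_zero])).2

lemma shift_pi : shift hπ π = 1 :=
  (shift_unique hπ (c := 0) (by rw [map_zero, mul_one, zero_add])).2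

/-- The coefficients of the expansion of `a` in powers of `π`. -/
def expCoeff : ℕ → v.toValuationSubring → K
  | 0, a => resEval v a
  | n + 1, a => expCoeff n (shift hπ a)

lemma expCoeff_add (n : ℕ) : ∀ a b : v.toValuationSubring,
    expCoeff hπ n (a + b) = expCoeff hπ n a + expCoeff hπ n b := by
  induction n with
  | zero => exact fun a b => map_add (resEval v) a b
  | succ n ih => intro a b; simp only [expCoeff, shift_add, ih]

lemma expCoeff_zero_elt (n : ℕ) : expCoeff hπ n (0 : v.toValuationSubring) = 0 := by
  have h := expCoeff_add hπ n 0 0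
  rw [add_zero] at h
  exact left_eq_add.mp h

lemma expCoeff_algebraMap_mul (n : ℕ) : ∀ (c : K) (b : v.toValuationSubring),
    expCoeff hπ n (algebraMap K _ c * b) = c * expCoeff hπ n b := by
  induction n with
  | zero => intro c b; simp [expCoeff]
  | succ n ih =>
    intro c b
    simp only [expCoeff, shift_mul, shift_algebraMap, resEval_algebraMap, zero_mul, add_zero, ih]

/-- The expansion of an integral element in powers of `π`, as an additive map. -/
def expAdd : v.toValuationSubring →+ PowerSeries K where
  toFun a := PowerSeries.mk fun n => expCoeff hπ n a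
  map_zero' := by ext n; simp [expCoeff_zero_elt]
  map_add' a b := by ext n; simp [expCoeff_add]

lemma coeff_expAdd (n : ℕ) (a : v.toValuationSubring) :
    PowerSeries.coeff n (expAdd hπ a) = expCoeff hπ n a := by
  simp [expAdd]

lemma expAdd_eq (a : v.toValuationSubring) :
    expAdd hπ a = PowerSeries.C (resEval v a) + PowerSeries.X * expAdd hπ (shift hπ a) := by
  ext n
  cases n with
  | zero => simp [coeff_expAdd, expCoeff]
  | succ n => simp [coeff_expAdd, expCoeff]

lemma expAdd_algebraMap_mul (c : K) (b : v.toValuationSubring) :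
    expAdd hπ (algebraMap K _ c * b) = PowerSeries.C c * expAdd hπ b := by
  ext n
  rw [PowerSeries.coeff_C_mul, coeff_expAdd, coeff_expAdd, expCoeff_algebraMap_mul]

lemma expAdd_mul (a b : v.toValuationSubring) :
    expAdd hπ (a * b) = expAdd hπ a * expAdd hπ b := by
  ext n
  induction n using Nat.strong_induction_on generalizing a b with
  | _ n ih =>
    cases n with
    | zero => simp [coeff_expAdd, expCoeff, PowerSeries.coeff_mul]
    | succ n =>
      rw [expAdd_eq hπ a, add_mul, mul_assoc, map_add, PowerSeries.coeff_C_mul,
        PowerSeries.coeff_succ_X_mul, coeff_expAdd, expCoeff, shift_mul, expCoeff_add,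
        expCoeff_algebraMap_mul, coeff_expAdd]
      congr 1
      rw [← ih n (Nat.lt_succ_self n), coeff_expAdd]

lemma expAdd_one : expAdd hπ (1 : v.toValuationSubring) = 1 := by
  have h := shift_algebraMap hπ (1 : K)
  rw [map_one] at h
  rw [expAdd_eq, map_one, h, map_zero, mul_zero, add_zero, map_one]

/-- The expansion of integral elements at `v` in powers of the uniformizer `π`. -/
def expPS : v.toValuationSubring →+* PowerSeries K where
  toFun := expAdd hπ
  map_one' := expAdd_one hπ
  map_mul' := expAdd_mul hπ
  map_zero' := map_zero _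
  map_add' := map_add _

lemma constantCoeff_expPS (a : v.toValuationSubring) :
    PowerSeries.constantCoeff (expPS hπ a) = resEval v a := by
  rw [← PowerSeries.coeff_zero_eq_constantCoeff]
  exact coeff_expAdd hπ 0 a

lemma expPS_algebraMap (c : K) :
    expPS hπ (algebraMap K _ c) = PowerSeries.C c := by
  have h := expAdd_algebraMap_mul hπ c 1
  rw [mul_one, expAdd_one, mul_one] at h
  exact h

lemma expPS_pi : expPS hπ π = PowerSeries.X := by
  show expAdd hπ π = _
  rw [expAdd_eq, shift_pi, expAdd_one,
    (resEval_eq_zero_iff v π).2 ((mem_maximalIdeal _).2 hπ.not_isUnit)]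
  simp

/-- The expansion as a Laurent series of an integral element. -/
def expLS : v.toValuationSubring →+* LaurentSeries K :=
  (HahnSeries.ofPowerSeries ℤ K).comp (expPS hπ)

omit [IsAlgClosed K] in
lemma coeff_order_ne {x : LaurentSeries K} (hx : x ≠ 0) : x.coeff x.order ≠ 0 := by
  rw [← HahnSeries.leadingCoeff_eq]
  exact HahnSeries.leadingCoeff_ne_zero.mpr hx

omit [IsAlgClosed K] in
lemma order_coe_powerSeries {p : PowerSeries K} (hp : PowerSeries.constantCoeff p ≠ 0) :
    (HahnSeries.ofPowerSeries ℤ K p).order = 0 := by
  have hc : (HahnSeries.ofPowerSeries ℤ K p).coeff ((0 : ℕ) : ℤ) ≠ 0 := by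
    rwa [LaurentSeries.coeff_coe_powerSeries, PowerSeries.coeff_zero_eq_constantCoeff]
  refine le_antisymm (by simpa using HahnSeries.order_le_of_coeff_ne_zero hc) ?_
  by_contra h
  push Not at h
  have hne : HahnSeries.ofPowerSeries ℤ K p ≠ 0 := fun h0 => hc (by simp [h0])
  have h2 := coeff_order_ne hne
  rw [PowerSeries.coeff_coe, if_pos h] at h2
  exact h2 rfl

lemma expLS_injective : Function.Injective (expLS hπ) := by
  rw [injective_iff_map_eq_zero]
  intro a ha
  by_contra h
  obtain ⟨n, u, hu⟩ := IsDiscreteValuationRing.eq_unit_mul_pow_irreducible h hπ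
  have ha' : expPS hπ a = 0 := HahnSeries.ofPowerSeries_injective (ha.trans (map_zero _).symm)
  rw [hu, map_mul, map_pow, expPS_pi] at ha'
  rcases mul_eq_zero.1 ha' with h1 | h1
  · have := congrArg PowerSeries.constantCoeff h1
    rw [constantCoeff_expPS, map_zero] at this
    exact (resEval_ne_zero_iff v _).2 u.isUnit this
  · exact pow_ne_zero _ PowerSeries.X_ne_zero h1

/-- The Laurent expansion embedding `F → K((X))` at `v` w.r.t. the uniformizer `π`. -/
def expand : F →+* LaurentSeries K :=
  IsFractionRing.lift (A := v.toValuationSubring) (expLS_injective hπ)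

lemma expand_coe (a : v.toValuationSubring) :
    expand hπ (a : F) = HahnSeries.ofPowerSeries ℤ K (expPS hπ a) :=
  IsFractionRing.lift_algebraMap (expLS_injective hπ) a

lemma expand_algebraMap (c : K) : expand hπ (algebraMap K F c) = HahnSeries.C c := by
  rw [← v.coe_algebraMap, expand_coe, expPS_algebraMap, HahnSeries.ofPowerSeries_C]

lemma expand_pi : expand hπ (π : F) = HahnSeries.single (1 : ℤ) (1 : K) := by
  rw [expand_coe, expPS_pi, HahnSeries.ofPowerSeries_X]

lemma expand_eq_zero_iff {f : F} : expand hπ f = 0 ↔ f = 0 := map_eq_zero _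

/-- The expansion has the order of vanishing of the function. -/
lemma order_expand (f : F) : (expand hπ f).order = v.ord f := by
  rcases eq_or_ne f 0 with rfl | hf
  · simp
  obtain ⟨u, hu⟩ := v.exists_unit_mul_zpow hf hπ
  have hπF : expand hπ ((π : F) ^ v.ord f) = HahnSeries.single (v.ord f) (1 : K) := by
    rw [map_zpow₀, expand_pi]; exact (RatFunc.single_zpow (v.ord f)).symm
  have hcu : PowerSeries.constantCoeff (expPS hπ (u : v.toValuationSubring)) ≠ 0 := by
    rw [constantCoeff_expPS]
    exact (resEval_ne_zero_iff v _).2 u.isUnit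
  have hne : HahnSeries.ofPowerSeries ℤ K (expPS hπ (u : v.toValuationSubring)) ≠ 0 := by
    intro h
    apply hcu
    rw [HahnSeries.ofPowerSeries_injective (h.trans (map_zero _).symm), map_zero]
  conv_lhs => rw [hu]
  rw [map_mul, hπF, expand_coe,
    HahnSeries.order_mul hne (by simp), order_coe_powerSeries hcu,
    HahnSeries.order_single one_ne_zero, zero_add]

/-- `ord (df/dπ) = ord f - 1` whenever `ord f` is invertible in `K`. -/
lemma order_deriv_expand {f : F} (hf : (v.ord f : K) ≠ 0) :
    LaurentSeries.derivative K (expand hπ f) ≠ 0 ∧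
      (LaurentSeries.derivative K (expand hπ f)).order = v.ord f - 1 := by
  set s := expand hπ f with hs
  have hord : s.order = v.ord f := order_expand hπ f
  have hs0 : s ≠ 0 := by
    intro h
    rw [hs, expand_eq_zero_iff] at h
    simp [h] at hf
  have hc : (LaurentSeries.derivative K s).coeff (v.ord f - 1) ≠ 0 := by
    rw [laurent_coeff_deriv, sub_add_cancel, ← hord]
    exact mul_ne_zero (hord ▸ hf) (coeff_order_ne hs0)
  have hd : LaurentSeries.derivative K s ≠ 0 := fun h => hc (by simp [h])
  refine ⟨hd, le_antisymm (HahnSeries.order_le_of_coeff_ne_zero hc) ?_⟩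
  by_contra h
  push Not at h
  have h2 := coeff_order_ne hd
  rw [laurent_coeff_deriv, HahnSeries.coeff_eq_zero_of_lt_order, mul_zero] at h2
  · exact h2 rfl
  · omega

/-- The `K`-derivation `f ↦ df/dπ` from `F` into Laurent series, read on Kähler differentials:
`Σ fᵢ dgᵢ ↦ Σ fᵢ(π) gᵢ'(π)`. -/
lemma exists_diffSeries :
    ∃ L : Ω[F⁄K] →+ LaurentSeries K,
      (∀ (c : F) (ω : Ω[F⁄K]), L (c • ω) = expand hπ c * L ω) ∧
      ∀ f : F, L (KaehlerDifferential.D K F f) = LaurentSeries.derivative K (expand hπ f) := by
  let : Algebra F (LaurentSeries K) := (expand hπ).toAlgebra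
  have : IsScalarTower K F (LaurentSeries K) := ⟨fun a b x => by
    rw [← HahnSeries.C_mul_eq_smul]
    show expand hπ (a • b) * x = HahnSeries.C a * (expand hπ b * x)
    rw [Algebra.smul_def, map_mul, expand_algebraMap, mul_assoc]⟩
  let lin : F →ₗ[K] LaurentSeries K :=
    { toFun := fun f => LaurentSeries.derivative K (expand hπ f)
      map_add' := fun a b => by rw [map_add, map_add]
      map_smul' := fun c b => by
        rw [Algebra.smul_def, map_mul, expand_algebraMap, HahnSeries.C_mul_eq_smul, map_smul]
        rfl }
  let d : Derivation K F (LaurentSeries K) := Derivation.mk' lin fun a b => by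
    show LaurentSeries.derivative K (expand hπ (a * b)) = _
    rw [map_mul, laurent_deriv_mul, Algebra.smul_def, Algebra.smul_def]
    rfl
  refine ⟨d.liftKaehlerDifferential.toAddMonoidHom, fun c ω => ?_, fun f => ?_⟩
  · simp [Algebra.smul_def, RingHom.algebraMap_toAlgebra]
  · simp only [LinearMap.toAddMonoidHom_coe, Derivation.liftKaehlerDifferential_comp_D]
    rfl

/-- The expansion of a differential form at `v` in terms of `π` and `dπ`. -/
def diffSeries : Ω[F⁄K] →+ LaurentSeries K := (exists_diffSeries hπ).choose

lemma diffSeries_smul (c : F) (ω : Ω[F⁄K]) :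
    diffSeries hπ (c • ω) = expand hπ c * diffSeries hπ ω :=
  (exists_diffSeries hπ).choose_spec.1 c ω

lemma diffSeries_D (f : F) :
    diffSeries hπ (KaehlerDifferential.D K F f) = LaurentSeries.derivative K (expand hπ f) :=
  (exists_diffSeries hπ).choose_spec.2 f

lemma diffSeries_D_pi : diffSeries hπ (KaehlerDifferential.D K F (π : F)) = 1 := by
  rw [diffSeries_D, expand_pi, laurent_deriv_X]

include hπ in
lemma D_uniformizer_ne_zero : KaehlerDifferential.D K F (π : F) ≠ 0 := by
  intro h
  simpa [h] using diffSeries_D_pi hπ

end Expansion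

end FLTAgent.FFDifferential
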