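import Mathlib.RingTheory.LaurentSeries
import Mathlib.RingTheory.Derivation.Basic
import Mathlib.RingTheory.PowerSeries.Derivative

/-!
# The formal derivative on Laurent series as a derivation

Coefficients of `LaurentSeries.derivative`, its compatibility with power series and the Leibniz
rule `laurent_deriv_mul`, used for the expansions of differentials.
-/

set_option autoImplicit false

noncomputable section

open HahnSeries

namespace FLTAgent.FFDifferential

variable {K : Type*} [CommRing K]

lemma laurent_coeff_deriv (f : LaurentSeries K) (n : ℤ) :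
    (LaurentSeries.derivative K f).coeff n = ((n + 1 : ℤ) : K) * f.coeff (n + 1) := by
  simp

lemma laurent_deriv_coe (p : PowerSeries K) :
    LaurentSeries.derivative K (HahnSeries.ofPowerSeries ℤ K p)
      = HahnSeries.ofPowerSeries ℤ K (PowerSeries.derivative K p) := by
  ext n
  rw [laurent_coeff_deriv]
  by_cases hn : 0 ≤ n
  · lift n to ℕ using hn
    rw [show ((n : ℤ) + 1) = ((n + 1 : ℕ) : ℤ) by push_cast; ring,
      LaurentSeries.coeff_coe_powerSeries, LaurentSeries.coeff_coe_powerSeries,
      PowerSeries.coeff_derivative]
    push_cast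
    ring
  · rcases eq_or_lt_of_le (show n ≤ -1 by omega) with rfl | h
    · simp [PowerSeries.coeff_coe]
    · rw [PowerSeries.coeff_coe, PowerSeries.coeff_coe, if_pos (by omega), if_pos (by omega),
        mul_zero]

lemma laurent_deriv_single_mul (a : ℤ) (f : LaurentSeries K) :
    LaurentSeries.derivative K (single a (1 : K) * f)
      = single (a - 1) (a : K) * f + single a (1 : K) * LaurentSeries.derivative K f := by
  ext n
  rw [laurent_coeff_deriv, HahnSeries.coeff_add]
  rw [show n + 1 = (n + 1 - a) + a by ring, HahnSeries.coeff_single_mul_add]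
  rw [show n = (n + 1 - a) + (a - 1) by ring, HahnSeries.coeff_single_mul_add]
  rw [show n + 1 - a + (a - 1) = (n - a) + a by ring, HahnSeries.coeff_single_mul_add,
    laurent_coeff_deriv]
  rw [show n - a + 1 = n + 1 - a by ring]
  push_cast
  ring_nf

lemma laurent_deriv_mul (f g : LaurentSeries K) :
    LaurentSeries.derivative K (f * g)
      = f * LaurentSeries.derivative K g + g * LaurentSeries.derivative K f := by
  obtain ⟨a, p, rfl⟩ : ∃ (a : ℤ) (p : PowerSeries K),
      f = single a (1 : K) * HahnSeries.ofPowerSeries ℤ K p :=
    ⟨f.order, f.powerSeriesPart, (LaurentSeries.single_order_mul_powerSeriesPart f).symm⟩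
  obtain ⟨b, q, rfl⟩ : ∃ (b : ℤ) (q : PowerSeries K),
      g = single b (1 : K) * HahnSeries.ofPowerSeries ℤ K q :=
    ⟨g.order, g.powerSeriesPart, (LaurentSeries.single_order_mul_powerSeriesPart g).symm⟩
  have key : single a (1 : K) * HahnSeries.ofPowerSeries ℤ K p *
      (single b (1 : K) * HahnSeries.ofPowerSeries ℤ K q)
      = single (a + b) (1 : K) * HahnSeries.ofPowerSeries ℤ K (p * q) := by
    rw [map_mul, show single (a + b) (1 : K) = single a (1 : K) * single b (1 : K) by
      rw [single_mul_single, one_mul]]
    ring
  rw [key, laurent_deriv_single_mul, laurent_deriv_single_mul, laurent_deriv_single_mul,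
    laurent_deriv_coe, laurent_deriv_coe, laurent_deriv_coe, Derivation.leibniz]
  simp only [smul_eq_mul, map_mul, map_add]
  have h1 : single (a + b - 1) ((a + b : ℤ) : K)
      = single a (1 : K) * single (b - 1) (b : K) + single b (1 : K) * single (a - 1) (a : K) := by
    rw [single_mul_single, single_mul_single, one_mul, one_mul,
      show a + (b - 1) = a + b - 1 by ring, show b + (a - 1) = a + b - 1 by ring,
      ← HahnSeries.single_add]
    congr 1
    push_cast
    ring
  have h2 : single (a + b) (1 : K) = single a (1 : K) * single b (1 : K) := by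
    rw [single_mul_single, one_mul]
  rw [h1, h2]
  ring

lemma laurent_deriv_X : LaurentSeries.derivative K (single (1 : ℤ) (1 : K)) = 1 := by
  simp

end FLTAgent.FFDifferential
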