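import Fermat.Agent.FFDifferential.Expansion

/-!
# `ordDifferential` is well defined and computable

`DCoordGenerates` holds at every place of a curve over an algebraically closed field;
`ordDifferential` may be computed with any uniformizer, and `ord (df) = ord f - 1` when `ord f`
is invertible in `K`.
-/

set_option autoImplicit false

noncomputable section

open AlgebraicCurve IsLocalRing KaehlerDifferential

namespace FLTAgent.FFDifferential

variable {K F : Type*} [Field K] [Field F] [Algebra K F] [IsAlgClosed K] [IsCurveOver K F]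
variable (v : Place K F)

omit [IsAlgClosed K] [IsCurveOver K F] in
lemma exists_dCoord_uniformizer :
    ∃ π : v.toValuationSubring, Irreducible π ∧
      v.dCoord = KaehlerDifferential.D K F (π : F) :=
  ⟨(IsDiscreteValuationRing.exists_irreducible v.toValuationSubring).choose,
    (IsDiscreteValuationRing.exists_irreducible v.toValuationSubring).choose_spec, rfl⟩

omit [IsAlgClosed K] in
/-- In a rank one module every nonzero element generates. -/
lemma exists_smul_eq_of_ne_zero {η : Ω[F⁄K]} (hη : η ≠ 0) (ω : Ω[F⁄K]) :
    ∃ c : F, c • η = ω :=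
  exists_smul_eq_of_finrank_eq_one IsCurveOver.finrank_kaehler hη ω

omit [IsAlgClosed K] in
lemma span_singleton_eq_top {η : Ω[F⁄K]} (hη : η ≠ 0) :
    Submodule.span F {η} = ⊤ := by
  rw [eq_top_iff]
  intro ω _
  exact Submodule.mem_span_singleton.2 (exists_smul_eq_of_ne_zero hη ω)

/-- At every place of a curve over an algebraically closed field, the differential of a
uniformizer generates. -/
instance dCoordGenerates_of_isAlgClosed : v.DCoordGenerates where
  span_eq_top := by
    obtain ⟨π, hπ, h⟩ := exists_dCoord_uniformizer v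
    rw [h]
    exact span_singleton_eq_top (D_uniformizer_ne_zero hπ)

variable {v} {π : v.toValuationSubring} (hπ : Irreducible π)

lemma diffSeries_injective : Function.Injective (diffSeries hπ) := by
  rw [injective_iff_map_eq_zero]
  intro ω h
  obtain ⟨c, rfl⟩ := exists_smul_eq_of_ne_zero (D_uniformizer_ne_zero hπ) ω
  rw [diffSeries_smul, diffSeries_D_pi, mul_one, expand_eq_zero_iff] at h
  rw [h, zero_smul]

/-- `ordDifferential` is the order of the expansion with respect to any uniformizer. -/
lemma ordDifferential_eq_order (ω : Ω[F⁄K]) :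
    v.ordDifferential ω = (diffSeries hπ ω).order := by
  obtain ⟨π₀, hπ₀, h⟩ := exists_dCoord_uniformizer v
  obtain ⟨c, hc⟩ := v.exists_eq_smul_dCoord ω
  rw [Place.ordDifferential, v.differentialCoeff_unique hc]
  rcases eq_or_ne c 0 with rfl | hc0
  · simp [hc]
  have h1 : (v.ord (π₀ : F) : K) ≠ 0 := by simp [v.ord_coe_irreducible hπ₀]
  obtain ⟨hne, hord⟩ := order_deriv_expand hπ h1
  rw [hc, h, diffSeries_smul, diffSeries_D,
    HahnSeries.order_mul ((map_ne_zero _).2 hc0) hne, order_expand, hord,
    v.ord_coe_irreducible hπ₀]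
  ring

lemma differentialCoeff_ne_zero {ω : Ω[F⁄K]} (hω : ω ≠ 0) : v.differentialCoeff ω ≠ 0 := by
  intro h
  apply hω
  rw [← v.differentialCoeff_smul_dCoord ω, h, zero_smul]

variable (v)

@[simp]
lemma ordDifferential_zero : v.ordDifferential (0 : Ω[F⁄K]) = 0 := by
  simp [Place.ordDifferential]

lemma ordDifferential_smul_eq {c : F} (hc : c ≠ 0) {ω : Ω[F⁄K]} (hω : ω ≠ 0) :
    v.ordDifferential (c • ω) = v.ord c + v.ordDifferential ω :=
  v.ordDifferential_smul hc (differentialCoeff_ne_zero hω)

/-- The differential of an element of order one has order zero. -/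
lemma D_ne_zero_of_ord_ne_zero {f : F} (hf : (v.ord f : K) ≠ 0) :
    KaehlerDifferential.D K F f ≠ 0 := by
  obtain ⟨π, hπ⟩ := IsDiscreteValuationRing.exists_irreducible v.toValuationSubring
  intro h
  exact (order_deriv_expand hπ hf).1 (by rw [← diffSeries_D, h, map_zero])

/-- `ord (df) = ord f - 1` whenever `ord f` is nonzero in `K`. -/
lemma ordDifferential_D {f : F} (hf : (v.ord f : K) ≠ 0) :
    v.ordDifferential (KaehlerDifferential.D K F f) = v.ord f - 1 := by
  obtain ⟨π, hπ⟩ := IsDiscreteValuationRing.exists_irreducible v.toValuationSubring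
  rw [ordDifferential_eq_order hπ, diffSeries_D]
  exact (order_deriv_expand hπ hf).2

lemma ordDifferential_D_uniformizer {t : F} (ht : v.ord t = 1) :
    v.ordDifferential (KaehlerDifferential.D K F t) = 0 := by
  rw [ordDifferential_D v (by simp [ht]), ht, sub_self]

/-- `ordDifferential` computed with an arbitrary uniformizer `t`. -/
lemma ordDifferential_smul_D {c t : F} (hc : c ≠ 0) (ht : v.ord t = 1) :
    v.ordDifferential (c • KaehlerDifferential.D K F t) = v.ord c := by
  rw [ordDifferential_smul_eq v hc (D_ne_zero_of_ord_ne_zero v (by simp [ht])),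
    ordDifferential_D_uniformizer v ht, add_zero]

end FLTAgent.FFDifferential
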