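import Fermat.Agent.FFDifferential.XLine

/-!
# Reduced bases

For a nonconstant `x` with pole divisor `P` and a divisor `D` with `L(D) = 0`, there is a
`K(x)`-basis `b` of `F` and natural numbers `d` such that for every `m` the space `L(D + mP)`
consists exactly of the combinations `∑ pᵢ(x) bᵢ` with `deg pᵢ + dᵢ ≤ m`.
-/

set_option autoImplicit false

noncomputable section

open AlgebraicCurve Polynomial IntermediateField FLTAgent.FFRiemannRoch

namespace FLTAgent.FFDifferential

variable {K F : Type*} [Field K] [Field F] [Algebra K F]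

variable (K) in
/-- The bound `deg p + d ≤ m`, with no condition on the zero polynomial. -/
def PolyBound (p : K[X]) (d m : ℕ) : Prop := ∀ i, p.coeff i ≠ 0 → i + d ≤ m

lemma polyBound_iff {p : K[X]} {d m : ℕ} :
    PolyBound K p d m ↔ p = 0 ∨ p.natDegree + d ≤ m := by
  constructor
  · intro h
    rcases eq_or_ne p 0 with hp | hp
    · exact Or.inl hp
    · exact Or.inr (h _ (by simpa using hp))
  · rintro (rfl | h) i hi
    · simp at hi
    · have := le_natDegree_of_ne_zero hi
      omega

section Principal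

variable [HasPrincipalDivisors K F]

lemma poleDiv_apply (f : F) (w : Place K F) :
    poleDiv (K := K) f w = max (-w.ord f) 0 := by
  simp [poleDiv, divOf_apply]

lemma poleDiv_eq_of_neg {f : F} {w : Place K F} (h : w.ord f < 0) :
    poleDiv (K := K) f w = -w.ord f := by
  rw [poleDiv_apply, max_eq_left (by omega)]

lemma poleDiv_eq_of_nonneg {f : F} {w : Place K F} (h : 0 ≤ w.ord f) :
    poleDiv (K := K) f w = 0 := by
  rw [poleDiv_apply, max_eq_right (by omega)]

section Filtration

variable (x : F) (D : Divisor K F)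

/-- The filtration `L(D + mP)`, `P` the pole divisor of `x`. -/
def filtL (m : ℕ) : Submodule K F := riemannRochSpace (D + m • poleDiv (K := K) x)

variable {x D}

lemma mem_filtL {m : ℕ} {f : F} : f ∈ filtL x D m ↔
    ∀ w : Place K F, f = 0 ∨ -(D w) - m * poleDiv (K := K) x w ≤ w.ord f := by
  rw [filtL, mem_riemannRochSpace_iff]
  refine forall_congr' fun w => or_congr_right ?_
  simp only [Finsupp.add_apply, Finsupp.smul_apply, nsmul_eq_mul]
  rw [neg_add, ← sub_eq_add_neg]

lemma filtL_mono {m m' : ℕ} (h : m ≤ m') : filtL x D m ≤ filtL x D m' :=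
  FFBasic.riemannRochSpace_mono (add_le_add le_rfl (nsmul_le_nsmul_left (poleDiv_nonneg x) h))

lemma mul_x_mem {m : ℕ} {f : F} (hf : f ∈ filtL x D m) : x * f ∈ filtL x D (m + 1) := by
  have := FFBasic.mul_mem_riemannRochSpace (mem_riemannRochSpace_poleDiv (K := K) x) hf
  rwa [filtL, succ_nsmul, show D + (m • poleDiv (K := K) x + poleDiv x)
    = poleDiv x + (D + m • poleDiv x) by abel]

lemma pow_mul_mem {m : ℕ} {f : F} (hf : f ∈ filtL x D m) (j : ℕ) :
    x ^ j * f ∈ filtL x D (m + j) := by
  induction j with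
  | zero => simpa using hf
  | succ j ih => rw [pow_succ', mul_assoc, ← add_assoc]; exact mul_x_mem ih

lemma aeval_mul_mem {m d : ℕ} {f : F} (hf : f ∈ filtL x D d) {p : K[X]}
    (hp : PolyBound K p d m) : aeval x p * f ∈ filtL x D m := by
  rw [aeval_eq_sum_range, Finset.sum_mul]
  refine sum_mem fun i _ => ?_
  rcases eq_or_ne (p.coeff i) 0 with hi | hi
  · rw [hi, zero_smul, zero_mul]; exact zero_mem _
  · rw [smul_mul_assoc]
    exact Submodule.smul_mem _ _ (filtL_mono (by have := hp i hi; omega) (pow_mul_mem hf i))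

lemma mem_of_mul_x_mem (hx : x ≠ 0) {m : ℕ} {f : F} (h1 : f ∈ filtL x D (m + 1))
    (h2 : x * f ∈ filtL x D (m + 1)) : f ∈ filtL x D m := by
  rw [mem_filtL] at h1 h2 ⊢
  intro w
  rcases eq_or_ne f 0 with hf | hf
  · exact Or.inl hf
  right
  rcases lt_or_ge (w.ord x) 0 with hw | hw
  · have := (h2 w).resolve_left (mul_ne_zero hx hf)
    rw [w.ord_mul hx hf, poleDiv_eq_of_neg hw] at this
    rw [poleDiv_eq_of_neg hw]
    push_cast at this
    linarith
  · have := (h1 w).resolve_left hf
    rw [poleDiv_eq_of_nonneg hw] at this ⊢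
    simpa using this

/-- Modulo `L(D + BP)`, only the degree `B - d` term of `p(x) f` survives for `f` of level `d`. -/
private lemma exists_eq_topTerm_add {d B : ℕ} {f : F} (hf : f ∈ filtL x D (d + 1)) {p : K[X]}
    (hp : ∀ i, p.coeff i ≠ 0 → i + d < B + 1) :
    ∃ z ∈ filtL x D B, aeval x p * f =
      (if d ≤ B then p.coeff (B - d) else 0) • (x ^ (B - d) * f) + z := by
  set a : K := if d ≤ B then p.coeff (B - d) else 0 with ha
  refine ⟨aeval x (p - C a * X ^ (B - d)) * f, aeval_mul_mem hf fun i hi => ?_, ?_⟩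
  · rw [coeff_sub, coeff_C_mul_X_pow] at hi
    by_cases hiB : i + d = B
    · simp [ha, show d ≤ B by omega, show i = B - d by omega] at hi
    · by_cases h2 : i = B - d
      · have : ¬ d ≤ B := by omega
        simp [ha, this, ne_eq] at hi
        have := hp i hi
        omega
      · simp [h2] at hi
        have := hp i hi
        omega
  · simp only [map_sub, map_mul, aeval_C, map_pow, aeval_X, Algebra.smul_def]
    ring

end Filtration

section Layers

/-- The index set of bases of `E 0, …, E (N - 1)`. -/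
private abbrev LayerIndex (E : ℕ → Submodule K F) (N : ℕ) : Type :=
  (j : Fin N) × Fin (Module.finrank K (E j))

variable (E : ℕ → Submodule K F) [∀ j, FiniteDimensional K (E j)]

/-- The union of the bases of `E 0, …, E (N - 1)`. -/
private def layerVec {N : ℕ} (k : LayerIndex E N) : F := Module.finBasis K (E k.1) k.2

variable {E} {x : F} {D : Divisor K F}

omit [∀ j, FiniteDimensional K (E j)] in
/-- Leading terms are independent: `∑_{j ≤ m} x^(m-j) a_j ∈ L(D + mP)` forces all `a_j = 0`. -/
private lemma eq_zero_of_sum_pow_mul_mem (hx0 : x ≠ 0) (h0 : filtL x D 0 = ⊥)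
    (hE : ∀ j, E j ≤ filtL x D (j + 1))
    (hdisj : ∀ j, ∀ a ∈ E j,
      a ∈ filtL x D j ⊔ (filtL x D j).map (LinearMap.mulLeft K x) → a = 0)
    {a : ℕ → F} (ha : ∀ j, a j ∈ E j) {m : ℕ}
    (h : ∑ j ∈ Finset.range (m + 1), x ^ (m - j) * a j ∈ filtL x D m) :
    ∀ j ≤ m, a j = 0 := by
  induction m with
  | zero =>
    intro j hj
    obtain rfl : j = 0 := by omega
    simpa [h0] using h
  | succ m ih =>
    set S := ∑ j ∈ Finset.range (m + 1), x ^ (m - j) * a j with hS
    have hSmem : S ∈ filtL x D (m + 1) := sum_mem fun j hj => filtL_mono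
      (by have := Finset.mem_range.1 hj; omega) (pow_mul_mem (hE j (ha j)) (m - j))
    have hsum : (∑ j ∈ Finset.range (m + 1 + 1), x ^ (m + 1 - j) * a j)
        = x * S + a (m + 1) := by
      rw [Finset.sum_range_succ, Nat.sub_self, pow_zero, one_mul, hS, Finset.mul_sum]
      refine congrArg (· + _) (Finset.sum_congr rfl fun j hj => ?_)
      rw [← mul_assoc, ← pow_succ', show m + 1 - j = m - j + 1 by
        have := Finset.mem_range.1 hj; omega]
    rw [hsum] at h
    have htop : a (m + 1) = 0 := by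
      refine hdisj _ _ (ha _) ?_
      have : a (m + 1) = (x * S + a (m + 1)) - x * S := by ring
      rw [this]
      exact sub_mem (Submodule.mem_sup_left h) (Submodule.mem_sup_right ⟨S, hSmem, rfl⟩)
    rw [htop, add_zero] at h
    intro j hj
    rcases eq_or_lt_of_le hj with rfl | hj
    · exact htop
    · exact ih (mem_of_mul_x_mem hx0 hSmem h) j (by omega)

/-- No nontrivial combination of top terms of degree `B` lies in `L(D + BP)`. -/
private lemma eq_zero_of_sum_smul_pow_mul_mem (hx0 : x ≠ 0) (h0 : filtL x D 0 = ⊥)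
    (hE : ∀ j, E j ≤ filtL x D (j + 1))
    (hdisj : ∀ j, ∀ a ∈ E j,
      a ∈ filtL x D j ⊔ (filtL x D j).map (LinearMap.mulLeft K x) → a = 0)
    {N B : ℕ} {q : LayerIndex E N → K} (hq : ∀ k, q k ≠ 0 → (k.1 : ℕ) ≤ B)
    (h : ∑ k, q k • (x ^ (B - k.1) * layerVec E k) ∈ filtL x D B) : ∀ k, q k = 0 := by
  let a : ℕ → F := fun j => if h : j < N then ∑ t, q ⟨⟨j, h⟩, t⟩ • layerVec E ⟨⟨j, h⟩, t⟩ else 0
  have ha : ∀ j, a j ∈ E j := fun j => by
    simp only [a]
    split_ifs with hj
    · exact sum_mem fun t _ => Submodule.smul_mem _ _ (Module.finBasis K (E j) t).2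
    · exact zero_mem _
  have hsum : ∑ j ∈ Finset.range (B + 1), x ^ (B - j) * a j
      = ∑ k, q k • (x ^ (B - k.1) * layerVec E k) := by
    have h1 : ∀ j, a j ≠ 0 → j < N ∧ j ≤ B := fun j hj => by
      by_contra hc
      refine hj ?_
      by_cases hjN : j < N
      · have hz : ∀ t, q ⟨⟨j, hjN⟩, t⟩ = 0 := fun t => by_contra fun ht => hc ⟨hjN, hq _ ht⟩
        simp [a, hjN, hz]
      · simp [a, hjN]
    calc ∑ j ∈ Finset.range (B + 1), x ^ (B - j) * a j
        = ∑ j ∈ Finset.range N, x ^ (B - j) * a j := by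
          rw [← Finset.sum_filter_of_ne (p := fun j => j < N)
              fun j _ hj => (h1 j (right_ne_zero_of_mul hj)).1,
            ← Finset.sum_filter_of_ne (s := Finset.range N) (p := fun j => j ≤ B)
              fun j _ hj => (h1 j (right_ne_zero_of_mul hj)).2]
          congr 1
          ext j
          simp; omega
      _ = ∑ j : Fin N, x ^ (B - (j : ℕ)) * a j :=
          (Fin.sum_univ_eq_sum_range (fun j => x ^ (B - j) * a j) N).symm
      _ = _ := by
          rw [Fintype.sum_sigma]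
          exact Finset.sum_congr rfl fun j _ => by simp [a, Finset.mul_sum]
  rintro ⟨⟨j, hj⟩, t⟩
  by_contra ht
  have h1 := eq_zero_of_sum_pow_mul_mem hx0 h0 hE hdisj ha (hsum ▸ h) j (hq _ ht)
  simp only [a, hj, dite_true] at h1
  have h2 : ∑ t, q ⟨⟨j, hj⟩, t⟩ • Module.finBasis K (E j) t = 0 := by
    apply Subtype.ext
    simpa [layerVec] using h1
  exact ht (Fintype.linearIndependent_iff.1 (Module.finBasis K (E j)).linearIndependent _ h2 t)

/-- The layer bases are independent over `K[x]`. -/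
private lemma eq_zero_of_sum_aeval_mul_layerVec (hx0 : x ≠ 0) (h0 : filtL x D 0 = ⊥)
    (hE : ∀ j, E j ≤ filtL x D (j + 1))
    (hdisj : ∀ j, ∀ a ∈ E j,
      a ∈ filtL x D j ⊔ (filtL x D j).map (LinearMap.mulLeft K x) → a = 0)
    {N : ℕ} {p : LayerIndex E N → K[X]} (hsum : ∑ k, aeval x (p k) * layerVec E k = 0) :
    ∀ k, p k = 0 := by
  obtain ⟨B, hB⟩ : ∃ B, ∀ k i, (p k).coeff i ≠ 0 → i + (k.1 : ℕ) < B :=
    ⟨Finset.univ.sum (fun k => (p k).natDegree + (k.1 : ℕ)) + 1, fun k i hi => by
      have := le_natDegree_of_ne_zero hi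
      have := Finset.single_le_sum (f := fun k => (p k).natDegree + (k.1 : ℕ))
        (fun k _ => Nat.zero_le _) (Finset.mem_univ k)
      omega⟩
  induction B with
  | zero =>
    intro k
    ext i
    by_contra h
    exact Nat.not_lt_zero _ (hB k i (by simpa using h))
  | succ B ih =>
    choose z hz hz' using fun k : LayerIndex E N =>
      exists_eq_topTerm_add (hE _ (Module.finBasis K (E k.1) k.2).2) (hB k)
    have htop := eq_zero_of_sum_smul_pow_mul_mem hx0 h0 hE hdisj (B := B)
      (q := fun k : LayerIndex E N => if (k.1 : ℕ) ≤ B then (p k).coeff (B - k.1) else 0)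
      (fun k hk => by by_contra hkB; exact hk (if_neg hkB))
      (by
        convert neg_mem (sum_mem fun k (_ : k ∈ Finset.univ) => hz k) using 1
        rw [eq_neg_iff_add_eq_zero, ← Finset.sum_add_distrib, ← hsum]
        exact Finset.sum_congr rfl fun k _ => (hz' k).symm)
    refine ih fun k i hi => ?_
    have h1 := hB k i hi
    by_contra h
    have h2 := htop k
    simp [show (k.1 : ℕ) ≤ B by omega, show B - (k.1 : ℕ) = i by omega] at h2
    exact hi h2

/-- If the layers from `N` on vanish, the earlier ones span every `L(D + mP)` over `K[x]`. -/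
private lemma exists_eq_sum_aeval_mul_layerVec (h0 : filtL x D 0 = ⊥)
    (hsup : ∀ j, filtL x D j ⊔ (filtL x D j).map (LinearMap.mulLeft K x) ⊔ E j
      = filtL x D (j + 1))
    {N : ℕ} (hN : ∀ j, N ≤ j → Module.finrank K (E j) = 0) {m : ℕ} {z : F}
    (hz : z ∈ filtL x D m) : ∃ p : LayerIndex E N → K[X],
      (∀ k, PolyBound K (p k) (k.1 + 1) m) ∧ z = ∑ k, aeval x (p k) * layerVec E k := by
  induction m generalizing z with
  | zero => exact ⟨0, fun k i hi => by simp at hi, by simpa [h0] using hz⟩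
  | succ m ih =>
    rw [← hsup m] at hz
    obtain ⟨u, hu, a, ha, rfl⟩ := Submodule.mem_sup.1 hz
    obtain ⟨u₁, hu₁, u₂', ⟨u₂, hu₂, rfl⟩, rfl⟩ := Submodule.mem_sup.1 hu
    obtain ⟨p₁, hp₁, rfl⟩ := ih hu₁
    obtain ⟨p₂, hp₂, rfl⟩ := ih hu₂
    let c : LayerIndex E N → K := fun k =>
      if h : (k.1 : ℕ) = m then (Module.finBasis K (E m)).repr ⟨a, ha⟩
        ⟨k.2, h ▸ k.2.2⟩ else 0
    refine ⟨fun k => p₁ k + X * p₂ k + Polynomial.C (c k), fun k i hi => ?_, ?_⟩
    · simp only [coeff_add] at hi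
      rcases eq_or_ne ((p₁ k).coeff i) 0 with h1 | h1
      · rcases i with _ | i
        · rw [h1, mul_coeff_zero, coeff_X_zero, zero_mul, coeff_C_zero] at hi
          by_cases h : (k.1 : ℕ) = m
          · omega
          · simp [c, h] at hi
        · rw [h1, coeff_X_mul, coeff_C, if_neg (by omega), zero_add, add_zero] at hi
          have := hp₂ k i hi
          omega
      · have := hp₁ k i h1
        omega
    · simp only [map_add, map_mul, aeval_X, aeval_C, add_mul, Finset.sum_add_distrib,
        LinearMap.mulLeft_apply, Finset.mul_sum, mul_assoc]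
      congr 1
      rw [Fintype.sum_sigma]
      by_cases hm : m < N
      · rw [Fintype.sum_eq_single ⟨m, hm⟩]
        · conv_lhs => rw [show a = ((⟨a, ha⟩ : E m) : F) from rfl,
            ← (Module.finBasis K (E m)).sum_repr ⟨a, ha⟩, AddSubmonoidClass.coe_finsetSum]
          exact Finset.sum_congr rfl fun t _ => by simp [c, layerVec, Algebra.smul_def]
        · intro j hj
          refine Finset.sum_eq_zero fun t _ => ?_
          have : (j : ℕ) ≠ m := fun h => hj (Fin.ext h)
          simp [c, this]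
      · have : a = 0 := by
          have h1 : Subsingleton (E m) := Module.finrank_zero_iff.1 (hN m (by omega))
          exact congrArg Subtype.val (Subsingleton.elim (⟨a, ha⟩ : E m) 0)
        rw [this]
        refine (Finset.sum_eq_zero fun j _ => Finset.sum_eq_zero fun t _ => ?_).symm
        have : (j : ℕ) ≠ m := by omega
        simp [c, this]

end Layers

end Principal

variable [IsAlgClosed K] [IsCurveOver K F]
variable {x : F} (hx : Transcendental K x)

/-- Multiplying by a suitable `q(x)` clears the finite poles beyond `D`. -/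
lemma exists_clear (hx : Transcendental K x) (D : Divisor K F) {z : F} (hz : z ≠ 0) :
    ∃ q : K[X], q ≠ 0 ∧
      (∀ c : K, (∀ w : Place K F, 0 < w.ord (x - algebraMap K F c) → -(D w) ≤ w.ord z) →
        q.eval c ≠ 0) ∧
      ∀ m : ℕ, (∀ w : Place K F, w.ord x < 0 →
          -(D w) - m * (-w.ord x) ≤ w.ord z + q.natDegree * w.ord x) →
        aeval x q * z ∈ filtL x D m := by
  classical
  let S := ((divOf (K := K) z).support ∪ D.support).filter
    fun w => 0 ≤ w.ord x ∧ w.ord z < -(D w)
  have hS : ∀ w : Place K F, 0 ≤ w.ord x → w.ord z < -(D w) → w ∈ S := by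
    intro w h1 h2
    refine Finset.mem_filter.2 ⟨?_, h1, h2⟩
    rw [Finset.mem_union, Finsupp.mem_support_iff, Finsupp.mem_support_iff, divOf_apply]
    omega
  choose c hc using fun w : S => exists_const_sub_ord_pos w.1 (Finset.mem_filter.1 w.2).2.1 hx
  let q : K[X] := ∏ w : S, (X - C (c w)) ^ (-(D w.1) - w.1.ord z).toNat
  have hq : q ≠ 0 := Finset.prod_ne_zero_iff.2 fun w _ => pow_ne_zero _ (X_sub_C_ne_zero _)
  refine ⟨q, hq, ?_, ?_⟩
  · intro a ha h0
    rw [eval_prod, Finset.prod_eq_zero_iff] at h0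
    obtain ⟨w, -, h0⟩ := h0
    rw [eval_pow, eval_sub, eval_X, eval_C, pow_eq_zero_iff'] at h0
    obtain ⟨h1, -⟩ := h0
    rw [sub_eq_zero] at h1
    have := ha w.1 (h1 ▸ hc w)
    have := (Finset.mem_filter.1 w.2).2.2
    omega
  · intro m hm
    rw [mem_filtL]
    intro w
    right
    rw [w.ord_mul (aeval_ne_zero_of_transcendental hx hq) hz]
    rcases lt_or_ge (w.ord x) 0 with hw | hw
    · rw [(ord_aeval_of_neg w hw hq).2, poleDiv_eq_of_neg hw]
      have := hm w hw
      linarith
    · rw [poleDiv_eq_of_nonneg hw, mul_zero, sub_zero]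
      obtain ⟨a, ha⟩ := exists_const_sub_ord_pos w hw hx
      rw [ord_aeval_of_pos w hx ha hq]
      by_cases hbad : w.ord z < -(D w)
      · have hwS := hS w hw hbad
        have hdvd : (X - C (c ⟨w, hwS⟩)) ^ (-(D w) - w.ord z).toNat ∣ q :=
          Finset.dvd_prod_of_mem (fun w : S => (X - C (c w)) ^ (-(D w.1) - w.1.ord z).toNat)
            (Finset.mem_univ (⟨w, hwS⟩ : S))
        have hroot := (le_rootMultiplicity_iff hq).2 hdvd
        have hac : w.ord (x - algebraMap K F (c ⟨w, hwS⟩)) > 0 := hc ⟨w, hwS⟩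
        have h1 := ord_aeval_of_pos w hx ha hq
        rw [ord_aeval_of_pos w hx hac hq] at h1
        rw [← h1]
        have h2 : ((-(D w) - w.ord z).toNat : ℤ) ≤ (q.rootMultiplicity (c ⟨w, hwS⟩) : ℤ) := by
          exact_mod_cast hroot
        have h3 := le_mul_of_one_le_right
          (Int.natCast_nonneg (q.rootMultiplicity (c ⟨w, hwS⟩))) (show (1 : ℤ) ≤ _ from hac)
        omega
      · have h3 := mul_nonneg (Int.natCast_nonneg (q.rootMultiplicity a)) ha.le
        omega

/-- Every element lies, after clearing denominators, in some `L(D + mP)`. -/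
lemma exists_clear_mem (hx : Transcendental K x) (D : Divisor K F) (z : F) :
    ∃ q : K[X], q ≠ 0 ∧ ∃ m : ℕ, aeval x q * z ∈ filtL x D m := by
  rcases eq_or_ne z 0 with rfl | hz
  · exact ⟨1, one_ne_zero, 0, by rw [mul_zero]; exact zero_mem _⟩
  obtain ⟨q, hq, -, hm⟩ := exists_clear hx D hz
  classical
  let T := (poleDiv (K := K) x).support
  refine ⟨q, hq, (∑ w ∈ T, (|D w| + |w.ord z| + q.natDegree * |w.ord x|)).toNat,
    hm _ fun w hw => ?_⟩
  have hwT : w ∈ T := by
    rw [Finsupp.mem_support_iff, poleDiv_eq_of_neg hw]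
    omega
  have h1 := Finset.single_le_sum
    (f := fun w : Place K F => |D w| + |w.ord z| + q.natDegree * |w.ord x|)
    (fun w _ => by positivity) hwT
  set s := ∑ w ∈ T, (|D w| + |w.ord z| + q.natDegree * |w.ord x|)
  have h2 : s * 1 ≤ (s.toNat : ℤ) * (-w.ord x) :=
    mul_le_mul (Int.self_le_toNat _) (by omega) zero_le_one (Int.natCast_nonneg _)
  have h4 : -(q.natDegree * |w.ord x|) ≤ (q.natDegree : ℤ) * w.ord x := by
    rw [abs_of_neg hw]; linarith
  have := le_abs_self (D w)
  have := neg_abs_le (D w)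
  have := neg_abs_le (w.ord z)
  linarith

/-- Natural numbers with bounded partial sums vanish from some index on. -/
private lemma exists_forall_ge_eq_zero {r : ℕ → ℕ} {n : ℕ}
    (h : ∀ N, ∑ j ∈ Finset.range N, r j ≤ n) : ∃ N, ∀ j, N ≤ j → r j = 0 := by
  obtain ⟨N, hN⟩ := Nat.sSup_mem (s := Set.range fun N => ∑ j ∈ Finset.range N, r j)
    (Set.range_nonempty _) ⟨_, Set.forall_mem_range.2 h⟩
  refine ⟨N, fun j hj => ?_⟩
  have h1 : ∑ i ∈ Finset.range (j + 1), r i ≤ ∑ i ∈ Finset.range N, r i := by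
    simp only at hN
    rw [hN]
    exact le_csSup ⟨_, Set.forall_mem_range.2 h⟩ ⟨j + 1, rfl⟩
  have h2 : ∑ i ∈ Finset.range N, r i ≤ ∑ i ∈ Finset.range j, r i :=
    Finset.sum_le_sum_of_subset (Finset.range_mono hj)
  rw [Finset.sum_range_succ] at h1
  omega

include hx in
omit [IsAlgClosed K] [IsCurveOver K F] in
/-- Independence over `K[x]` gives independence over `K(x)`. -/
private lemma linearIndependent_of_sum_aeval_mul {ι : Type*} [Fintype ι] {f : ι → F}
    (h : ∀ p : ι → K[X], ∑ k, aeval x (p k) * f k = 0 → ∀ k, p k = 0) :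
    LinearIndependent K⟮x⟯ f := by
  classical
  rw [Fintype.linearIndependent_iff]
  intro g hg
  choose p s hs hps using fun k => exists_ratEval_div (g k)
  let Q := ∏ k, s k
  let R : ι → K[X] := fun k => p k * ∏ k' ∈ Finset.univ.erase k, s k'
  have hR : ∀ k, aeval x (R k) = aeval x Q * (g k : F) := fun k => by
    have h1 : (g k : F) = aeval x (p k) / aeval x (s k) := by
      rw [← coe_ratEval, ← coe_ratEval, ← map_div₀, ← hps k]; rfl
    rw [h1, show Q = s k * ∏ k' ∈ Finset.univ.erase k, s k' from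
      (Finset.mul_prod_erase _ _ (Finset.mem_univ k)).symm]
    simp only [R, map_mul]
    field_simp [aeval_ne_zero_of_transcendental hx (hs k)]
  have hzero := h R (by
    have h2 : (∑ k, (g k : F) * f k) = 0 := hg
    simp only [hR, mul_assoc, ← Finset.mul_sum, h2, mul_zero])
  intro k
  have h3 : aeval x Q * (g k : F) = 0 := by rw [← hR, hzero k, map_zero]
  exact Subtype.ext ((mul_eq_zero.1 h3).resolve_left
    (aeval_ne_zero_of_transcendental hx (Finset.prod_ne_zero_iff.2 fun k _ => hs k)))

include hx in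
/-- A family whose `K[x]`-span contains every `L(D + mP)` spans `F` over `K(x)`. -/
private lemma top_le_span_of_forall_filtL {ι : Type*} [Fintype ι] (D : Divisor K F) {f : ι → F}
    (h : ∀ m, ∀ z ∈ filtL x D m, ∃ p : ι → K[X], z = ∑ k, aeval x (p k) * f k) :
    ⊤ ≤ Submodule.span K⟮x⟯ (Set.range f) := by
  intro z _
  obtain ⟨q, hq, m, hm⟩ := exists_clear_mem hx D z
  obtain ⟨p, hp⟩ := h m _ hm
  have hz : z = ∑ k, (ratEval x q)⁻¹ • (ratEval x (p k) • f k) := by
    simp only [Algebra.smul_def, map_inv₀, coe_ratEval, ← Finset.mul_sum, ← hp]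
    rw [inv_mul_cancel_left₀ (aeval_ne_zero_of_transcendental hx hq)]
  rw [hz]
  exact sum_mem fun k _ => Submodule.smul_mem _ _
    (Submodule.smul_mem _ _ (Submodule.subset_span ⟨k, rfl⟩))

variable [Nonempty (Place K F)] [FiniteDimensional K⟮x⟯ F]

include hx in
/-- Existence of a reduced basis. -/
theorem exists_reducedBasis (D : Divisor K F) (h0 : filtL x D 0 = ⊥) :
    ∃ (b : Module.Basis (Fin (Module.finrank K⟮x⟯ F)) K⟮x⟯ F)
      (d : Fin (Module.finrank K⟮x⟯ F) → ℕ),
      (∀ i, b i ∈ filtL x D (d i)) ∧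
      ∀ m, ∀ z ∈ filtL x D m, ∃ p : Fin (Module.finrank K⟮x⟯ F) → K[X],
        (∀ i, PolyBound K (p i) (d i) m) ∧ z = ∑ i, aeval x (p i) * b i := by
  classical
  have hx0 : x ≠ 0 := fun h => hx (h ▸ isAlgebraic_zero)
  -- `E m` complements `L(D + mP) + x L(D + mP)` in `L(D + (m + 1)P)`
  let W : ℕ → Submodule K F := fun m =>
    filtL x D m ⊔ (filtL x D m).map (LinearMap.mulLeft K x)
  have hW : ∀ m, W m ≤ filtL x D (m + 1) := fun m =>
    sup_le (filtL_mono (Nat.le_succ m)) (Submodule.map_le_iff_le_comap.2 fun f hf => mul_x_mem hf)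
  choose C hC using fun m => Submodule.exists_isCompl (W m)
  let E : ℕ → Submodule K F := fun m => C m ⊓ filtL x D (m + 1)
  have hsup : ∀ m, W m ⊔ E m = filtL x D (m + 1) := fun m => by
    rw [← sup_inf_assoc_of_le _ (hW m), (hC m).sup_eq_top, top_inf_eq]
  have hdisj : ∀ m, ∀ a ∈ E m, a ∈ W m → a = 0 := fun m a ha ha' =>
    Submodule.disjoint_def.1 (hC m).disjoint a ha' ha.1
  have hE : ∀ m, E m ≤ filtL x D (m + 1) := fun m => inf_le_right
  have : ∀ m, FiniteDimensional K (filtL x D m) := fun m => instFiniteRiemannRochSpace _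
  have : ∀ m, FiniteDimensional K (E m) := fun m => Submodule.finiteDimensional_of_le (hE m)
  have indep : ∀ N, LinearIndependent K⟮x⟯ (layerVec E (N := N)) := fun N =>
    linearIndependent_of_sum_aeval_mul hx fun p hp =>
      eq_zero_of_sum_aeval_mul_layerVec hx0 h0 hE hdisj hp
  obtain ⟨N, hN⟩ := exists_forall_ge_eq_zero (r := fun j => Module.finrank K (E j))
    (n := Module.finrank K⟮x⟯ F) fun N => by
      simpa [Fintype.card_sigma, ← Fin.sum_univ_eq_sum_range] using
        (indep N).fintype_card_le_finrank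
  have span : ∀ m, ∀ z ∈ filtL x D m, ∃ p : LayerIndex E N → K[X],
      (∀ k, PolyBound K (p k) (k.1 + 1) m) ∧ z = ∑ k, aeval x (p k) * layerVec E k :=
    fun m z hz => exists_eq_sum_aeval_mul_layerVec h0 hsup hN hz
  let b₀ := Module.Basis.mk (indep N) (top_le_span_of_forall_filtL hx D fun m z hz =>
    (span m z hz).imp fun _ hp => hp.2)
  let σ := b₀.indexEquiv (Module.finBasis K⟮x⟯ F)
  refine ⟨b₀.reindex σ, fun i => (σ.symm i).1 + 1, fun i => ?_, fun m z hz => ?_⟩
  · simp only [Module.Basis.reindex_apply, b₀, Module.Basis.mk_apply]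
    exact hE _ (Module.finBasis K (E _) _).2
  · obtain ⟨p, hp, hp'⟩ := span m z hz
    refine ⟨fun i => p (σ.symm i), fun i => hp _, ?_⟩
    rw [hp']
    refine Fintype.sum_equiv σ _ _ fun k => ?_
    simp only [b₀, Module.Basis.reindex_apply, Module.Basis.mk_apply]
    rw [Equiv.symm_apply_apply]

end FLTAgent.FFDifferential
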