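import Fermat.Agent.FFDifferential.Criterion

/-!
# Riemann–Roch with the canonical divisor of a Kähler differential

For `x` transcendental: `ord (dx)` is a divisor `K₀`, and
`ℓ(D) - ℓ(K₀ - D) = deg D + 1 - g`, with `g = genusFF`.
-/

set_option autoImplicit false

noncomputable section

open AlgebraicCurve Polynomial IntermediateField FLTAgent.FFRiemannRoch FLTAgent.FFBasic

namespace FLTAgent.FFDifferential

variable {K F : Type*} [Field K] [Field F] [Algebra K F] [IsFunctionField K F]
  [IsAlgClosed K] [CharZero K]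
variable {x : F} (hx : Transcendental K x) [FiniteDimensional K⟮x⟯ F]

omit [IsAlgClosed K] [CharZero K] [FiniteDimensional K⟮x⟯ F] in
lemma filtL_zero_eq_bot {D : Divisor K F} (hD : Divisor.degree D < 0) : filtL x D 0 = ⊥ := by
  rw [filtL, zero_smul, add_zero]
  exact eq_zero_of_degree_neg hD

include hx in
/-- `dx` has only finitely many zeros and poles. -/
lemma finite_setOf_ordDifferential_dx_ne_zero :
    {w : Place K F | w.ordDifferential (KaehlerDifferential.D K F x) ≠ 0}.Finite := by
  classical
  have : CharZero F := charZero_of_injective_algebraMap (algebraMap K F).injective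
  obtain ⟨v₀⟩ := nonempty_place (K := K) (F := F)
  set D : Divisor K F := -Finsupp.single v₀ 1 with hD
  have hdeg : Divisor.degree D < 0 := by
    rw [hD, map_neg, Divisor.degree_single]
    have := place_deg_pos v₀
    omega
  obtain ⟨b, d, hb, -⟩ := exists_reducedBasis hx D (filtL_zero_eq_bot hdeg)
  set B := Algebra.traceForm K⟮x⟯ F
  have hB : B.Nondegenerate := traceForm_nondegenerate K⟮x⟯ F
  set b' := B.dualBasis hB b
  let bad : Set (Place K F) := {w | w.ord x < 0}
    ∪ {w | w.restrict K⟮x⟯ = v₀.restrict K⟮x⟯}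
    ∪ ⋃ i, {w | w.ord (b' i) ≠ 0}
  refine Set.Finite.subset (s := bad) ?_ fun w hw => ?_
  · refine ((Set.Finite.subset (finite_setOf_ord_ne_zero x) fun w hw => ne_of_lt hw).union
      (Place.restrict_fiber_finite _)).union (Set.finite_iUnion fun i => finite_setOf_ord_ne_zero _)
  by_contra hbad
  simp only [bad, Set.mem_union, Set.mem_ofPred_eq, Set.mem_iUnion, not_or, not_exists, not_lt,
    not_not] at hbad
  obtain ⟨⟨hwx, hv⟩, hb'⟩ := hbad
  obtain ⟨c, hc⟩ := exists_const_sub_ord_pos w hwx hx
  simp only [Set.mem_ofPred_eq, ordDifferential_dx_of_pos w hc] at hw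
  obtain ⟨z, hz⟩ := exists_ord_eq_forall ((w.restrict K⟮x⟯).fiber F)
    (fun w' => if w' = w then 1 - w.ord (x - algebraMap K F c) else 0)
  obtain ⟨hz0, hzw⟩ := hz w (Place.mem_fiber.2 rfl)
  rw [if_pos rfl] at hzw
  have hmem : z ∈ w.toValuationSubring := by
    rw [← b'.sum_repr z]
    refine sum_mem fun i _ => ?_
    rw [Algebra.smul_def]
    refine mul_mem ?_ ((ord_nonneg_iff w (b'.ne_zero i)).1 (hb' i).ge)
    rw [LinearMap.BilinForm.dualBasis_repr_apply, Algebra.traceForm_apply,
      ← Place.mem_restrict_iff]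
    rcases trace_ord_nonneg discrete_of_isFunctionField (w.restrict K⟮x⟯) (z * b i)
      (fun w' hw' => by
        obtain ⟨hz0', hzw'⟩ := hz w' (Place.mem_fiber.2 hw')
        right
        have hc' := pos_of_restrict_eq hw' hc
        have h2 := (mem_filtL.1 (hb i) w').resolve_left (b.ne_zero i)
        have hne : w' ≠ v₀ := fun h => hv (hw' ▸ h ▸ rfl)
        have hx0 : x ≠ 0 := fun h => hx (h ▸ isAlgebraic_zero)
        have hP : poleDiv (K := K) x w' = 0 := poleDiv_eq_of_nonneg (by
          by_contra h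
          have h3 := (ord_add_eq_of_lt w' (f := x) (g := -algebraMap K F c) hx0
            (Or.inr (by rw [← map_neg, ord_algebraMap]; omega))).2
          rw [← sub_eq_add_neg] at h3
          omega)
        have hD' : D w' = 0 := by simp [hD, hne]
        rw [hP, hD'] at h2
        simp only [neg_zero, mul_zero, sub_zero] at h2
        rw [w'.ord_mul hz0' (b.ne_zero i), ramificationIndex_of_pos hx w' hc', hzw']
        split_ifs with h
        · subst h; omega
        · omega) with h | h
    · rw [h]; exact zero_mem _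
    · rcases eq_or_ne (Algebra.trace K⟮x⟯ F (z * b i)) 0 with h0 | h0
      · rw [h0]; exact zero_mem _
      · exact (ord_nonneg_iff _ h0).1 h
  rw [← ord_nonneg_iff w hz0, hzw] at hmem
  omega

/-- The divisor of `dx`. -/
def dxDivisor : Divisor K F :=
  Finsupp.ofSupportFinite (fun w => w.ordDifferential (KaehlerDifferential.D K F x))
    (finite_setOf_ordDifferential_dx_ne_zero hx)

lemma dxDivisor_apply (w : Place K F) :
    dxDivisor hx w = w.ordDifferential (KaehlerDifferential.D K F x) := rfl

omit [IsFunctionField K F] [IsAlgClosed K] [CharZero K] [FiniteDimensional K⟮x⟯ F] in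
lemma coe_ratEval' (p : K[X]) : ((ratEval x p : K⟮x⟯) : F) = aeval x p := coe_ratEval p

omit [IsFunctionField K F] [IsAlgClosed K] [CharZero K] [FiniteDimensional K⟮x⟯ F] in
include hx in
lemma ratEval_injective : Function.Injective (ratEval (K := K) x) :=
  fun p q h => sub_eq_zero.1 (by
    by_contra hne
    exact ratEval_ne_zero hx hne (by rw [map_sub, h, sub_self]))

variable {D : Divisor K F}
  {b : Module.Basis (Fin (Module.finrank K⟮x⟯ F)) K⟮x⟯ F}
  {d : Fin (Module.finrank K⟮x⟯ F) → ℕ}

omit [IsFunctionField K F] [IsAlgClosed K] [CharZero K] [FiniteDimensional K⟮x⟯ F] in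
lemma finrank_range_of_injective {n : ℕ} (k : Fin n → ℕ)
    (Φ : (Π i, degreeLT K (k i)) →ₗ[K] F) (hΦ : Function.Injective Φ) :
    Module.finrank K (LinearMap.range Φ) = ∑ i, k i := by
  have : ∀ i, Module.Finite K (degreeLT K (k i)) := fun i =>
    Module.Finite.equiv (degreeLTEquiv K (k i)).symm
  rw [LinearMap.finrank_range_of_inj hΦ, Module.finrank_pi_fintype]
  refine Finset.sum_congr rfl fun i _ => ?_
  rw [(degreeLTEquiv K (k i)).finrank_eq, Module.finrank_fin_fun]

omit [IsFunctionField K F] [IsAlgClosed K] [CharZero K] [FiniteDimensional K⟮x⟯ F] in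
lemma mem_degreeLT_iff_natDegree {p : K[X]} {n : ℕ} :
    p ∈ degreeLT K n ↔ p = 0 ∨ p.natDegree < n := by
  rw [mem_degreeLT]
  rcases eq_or_ne p 0 with rfl | hp
  · simp
  · rw [or_iff_right hp, degree_eq_natDegree hp]
    exact_mod_cast Iff.rfl

omit [IsAlgClosed K] [CharZero K] [FiniteDimensional (↥K⟮x⟯) F] in
include hx in
/-- `ℓ(D + mP) = Σ (m + 1 - dᵢ)⁺`. -/
theorem ell_filtL (hb : ∀ i, b i ∈ filtL x D (d i))
    (hspan : ∀ m, ∀ z ∈ filtL x D m, ∃ p : Fin (Module.finrank K⟮x⟯ F) → K[X],
      (∀ i, PolyBound K (p i) (d i) m) ∧ z = ∑ i, aeval x (p i) * b i) (m : ℕ) :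
    ell K F (D + m • poleDiv x) = ∑ i, (m + 1 - d i) := by
  let Φ : (Π i, degreeLT K (m + 1 - d i)) →ₗ[K] F :=
    ∑ i, (LinearMap.mulRight K (b i)).comp ((aeval x).toLinearMap.comp
      ((degreeLT K (m + 1 - d i)).subtype.comp (LinearMap.proj i)))
  have hΦ : ∀ p, Φ p = ∑ i, aeval x (p i : K[X]) * b i := fun p => by simp [Φ]
  have hinj : Function.Injective Φ := by
    rw [injective_iff_map_eq_zero]
    intro p hp
    rw [hΦ] at hp
    have h : ∑ i, ratEval x (p i : K[X]) • b i = 0 := by
      simpa [Algebra.smul_def, coe_ratEval'] using hp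
    funext i
    apply Subtype.ext
    exact ratEval_injective hx ((Fintype.linearIndependent_iff.1 b.linearIndependent _ h i).trans
      (map_zero _).symm)
  have hr : LinearMap.range Φ = filtL x D m := by
    refine le_antisymm ?_ fun z hz => ?_
    · rintro _ ⟨p, rfl⟩
      rw [hΦ]
      refine sum_mem fun i _ => aeval_mul_mem (hb i) (polyBound_iff.2 ?_)
      rcases mem_degreeLT_iff_natDegree.1 (p i).2 with h | h
      · exact Or.inl h
      · exact Or.inr (by omega)
    · obtain ⟨p, hp, rfl⟩ := hspan m z hz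
      refine ⟨fun i => ⟨p i, mem_degreeLT_iff_natDegree.2
        ((polyBound_iff.1 (hp i)).imp_right fun h => by omega)⟩, hΦ _⟩
  show Module.finrank K (filtL x D m) = _
  rw [← hr, finrank_range_of_injective _ Φ hinj]

include hx in
/-- `ℓ(K₀ - D + kP) = Σ (dᵢ + k - 1)⁺`. -/
theorem ell_dxDivisor_sub (hb : ∀ i, b i ∈ filtL x D (d i))
    (hspan : ∀ m, ∀ z ∈ filtL x D m, ∃ p : Fin (Module.finrank K⟮x⟯ F) → K[X],
      (∀ i, PolyBound K (p i) (d i) m) ∧ z = ∑ i, aeval x (p i) * b i) (k : ℤ) :
    ell K F (dxDivisor hx - D + k • poleDiv x) = ∑ i, ((d i : ℤ) + k - 1).toNat := by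
  have : CharZero F := charZero_of_injective_algebraMap (algebraMap K F).injective
  let B := Algebra.traceForm K⟮x⟯ F
  have hB : B.Nondegenerate := traceForm_nondegenerate K⟮x⟯ F
  let b' := B.dualBasis hB b
  let Φ : (Π i, degreeLT K ((d i : ℤ) + k - 1).toNat) →ₗ[K] F :=
    ∑ i, (LinearMap.mulRight K (b' i)).comp ((aeval x).toLinearMap.comp
      ((degreeLT K ((d i : ℤ) + k - 1).toNat).subtype.comp (LinearMap.proj i)))
  have hΦ : ∀ p, Φ p = ∑ i, ratEval x (p i : K[X]) • b' i := fun p => by
    simp [Φ, Algebra.smul_def, coe_ratEval']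
  have htr : ∀ (g : Fin (Module.finrank K⟮x⟯ F) → K⟮x⟯) j,
      Algebra.trace K⟮x⟯ F ((∑ i, g i • b' i) * b j) = g j := fun g j => by
    have h := LinearMap.BilinForm.dualBasis_repr_apply hB b (∑ i, g i • b' i) j
    rw [Module.Basis.repr_sum_self] at h
    exact h.symm
  have hinj : Function.Injective Φ := by
    rw [injective_iff_map_eq_zero]
    intro p hp
    rw [hΦ] at hp
    funext i
    apply Subtype.ext
    exact ratEval_injective hx ((Fintype.linearIndependent_iff.1 b'.linearIndependent _ hp i).trans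
      (map_zero _).symm)
  have hmem : ∀ z : F, z ∈ riemannRochSpace (dxDivisor hx - D + k • poleDiv x) ↔
      DiffBound x D k z := by
    intro z
    rw [mem_riemannRochSpace_iff]
    refine forall_congr' fun w => or_congr_right ?_
    simp only [Finsupp.add_apply, Finsupp.sub_apply, Finsupp.smul_apply, dxDivisor_apply,
      smul_eq_mul]
    constructor <;> intro h <;> linarith
  have hr : LinearMap.range Φ = riemannRochSpace (dxDivisor hx - D + k • poleDiv x) := by
    refine le_antisymm ?_ fun z hz => ?_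
    · rintro _ ⟨p, rfl⟩
      rw [hmem]
      refine diffBound_of_traceBound hx hspan fun i => ⟨(p i : K[X]), ?_, ?_⟩
      · rw [hΦ, htr]
      · rcases mem_degreeLT_iff_natDegree.1 (p i).2 with h | h
        · exact Or.inl h
        · exact Or.inr (by omega)
    · rw [hmem] at hz
      choose s hs hsd using traceBound_of_diffBound hx hb hz
      refine ⟨fun i => ⟨s i, mem_degreeLT_iff_natDegree.2
        ((hsd i).imp_right fun h => by omega)⟩, ?_⟩
      rw [hΦ]
      conv_rhs => rw [← b'.sum_repr z]
      refine Finset.sum_congr rfl fun i _ => ?_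
      rw [LinearMap.BilinForm.dualBasis_repr_apply, Algebra.traceForm_apply, hs]
  show Module.finrank K (riemannRochSpace (dxDivisor hx - D + k • poleDiv x)) = _
  rw [← hr, finrank_range_of_injective _ Φ hinj]

include hx in
omit [CharZero K] [IsAlgClosed K] [FiniteDimensional K⟮x⟯ F] in
lemma degree_poleDiv_pos : 0 < Divisor.degree (poleDiv (K := K) x) := by
  classical
  obtain ⟨w, hw⟩ := exists_place_ord_neg hx
  have hle : Finsupp.single w 1 ≤ poleDiv (K := K) x := fun u => by
    rcases eq_or_ne u w with rfl | hu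
    · rw [Finsupp.single_eq_same, poleDiv_eq_of_neg hw]; omega
    · rw [Finsupp.single_eq_of_ne hu]; exact poleDiv_nonneg x u
  have h := degree_le_degree hle
  rw [Divisor.degree_single] at h
  have := place_deg_pos w
  omega

include hx in
/-- **Riemann–Roch** with the divisor of `dx`. -/
theorem riemann_roch_dxDivisor (D : Divisor K F) :
    (ell K F D : ℤ) - ell K F (dxDivisor hx - D) = Divisor.degree D + 1 - genusFF K F := by
  set P := poleDiv (K := K) x with hP
  have hdegP := degree_poleDiv_pos hx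
  rw [← hP] at hdegP
  set j := (Divisor.degree D).toNat + 1 with hj
  set D₀ := D - j • P with hD₀
  have hdeg : Divisor.degree D₀ < 0 := by
    have h1 : (j : ℤ) * 1 ≤ j * Divisor.degree P :=
      mul_le_mul_of_nonneg_left (by omega) (Int.natCast_nonneg _)
    rw [hD₀, map_sub, map_nsmul, nsmul_eq_mul]
    omega
  obtain ⟨b, d, hb, hspan⟩ := exists_reducedBasis hx D₀ (filtL_zero_eq_bot hdeg)
  let n := Module.finrank K⟮x⟯ F
  have h1 : (ell K F D : ℤ) = ∑ i, ((j + 1 - d i : ℕ) : ℤ) := by
    have := ell_filtL hx hb hspan j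
    rw [← hP, hD₀, sub_add_cancel] at this
    rw [this]; push_cast; rfl
  have h2 : (ell K F (dxDivisor hx - D) : ℤ)
      = ∑ i, ((((d i : ℤ) + (-(j : ℤ)) - 1).toNat : ℕ) : ℤ) := by
    have := ell_dxDivisor_sub hx hb hspan (-(j : ℤ))
    rw [show dxDivisor hx - D₀ + (-(j : ℤ)) • poleDiv x = dxDivisor hx - D by
      rw [hD₀, ← hP, neg_smul, natCast_zsmul]; abel] at this
    rw [this]; push_cast; rfl
  obtain ⟨N, hN⟩ := exists_bound_ell (K := K) (F := F)
  set S : ℤ := ∑ i, (d i : ℤ) with hS
  set M := (N - Divisor.degree D₀).toNat + S.toNat with hM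
  have hlarge : ∀ m : ℕ, M ≤ m →
      (n : ℤ) * (m + 1) - S
        = Divisor.degree D₀ + m * Divisor.degree P + 1 - genusFF K F := by
    intro m hm
    have hN' := hN (D₀ + m • P) (by
      have h1 : (m : ℤ) * 1 ≤ m * Divisor.degree P :=
        mul_le_mul_of_nonneg_left (by omega) (Int.natCast_nonneg _)
      rw [map_add, map_nsmul, nsmul_eq_mul]
      omega)
    rw [map_add, map_nsmul, nsmul_eq_mul, ell_filtL hx hb hspan m, Nat.cast_sum] at hN'
    rw [← hN']
    calc (n : ℤ) * (m + 1) - S = ∑ i, ((m : ℤ) + 1 - d i) := by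
          rw [Finset.sum_sub_distrib, Finset.sum_const, Finset.card_univ, Fintype.card_fin,
            nsmul_eq_mul, hS]
      _ = _ := Finset.sum_congr rfl fun i _ => by
          have hi := Finset.single_le_sum (f := fun i => (d i : ℤ))
            (fun i _ => Int.natCast_nonneg _) (Finset.mem_univ i)
          rw [← hS] at hi
          omega
  have e1 := hlarge M le_rfl
  have e2 := hlarge (M + 1) (Nat.le_succ _)
  push_cast at e2
  have hn : (n : ℤ) = Divisor.degree P := by linarith
  rw [h1, h2, ← Finset.sum_sub_distrib]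
  have h3 : ∀ i : Fin n, ((j + 1 - d i : ℕ) : ℤ) - ((((d i : ℤ) + (-(j : ℤ)) - 1).toNat : ℕ) : ℤ)
      = (j : ℤ) + 1 - d i := fun i => by omega
  rw [Finset.sum_congr rfl fun i _ => h3 i, Finset.sum_sub_distrib, Finset.sum_const,
    Finset.card_univ, Fintype.card_fin, nsmul_eq_mul, ← hS]
  have hDd : Divisor.degree D = Divisor.degree D₀ + j * Divisor.degree P := by
    rw [hD₀, map_sub, map_nsmul, nsmul_eq_mul]; ring
  rw [hn] at e1 ⊢
  linarith

include hx in
theorem ell_dxDivisor : (ell K F (dxDivisor hx) : ℤ) = genusFF K F := by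
  have := riemann_roch_dxDivisor hx (0 : Divisor K F)
  rw [sub_zero, map_zero, ell_zero] at this
  push_cast at this
  linarith

include hx in
theorem degree_dxDivisor : Divisor.degree (dxDivisor hx) = 2 * (genusFF K F : ℤ) - 2 := by
  have := riemann_roch_dxDivisor hx (dxDivisor hx)
  rw [sub_self, ell_zero, ell_dxDivisor hx] at this
  push_cast at this
  linarith

end FLTAgent.FFDifferential
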