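import Fermat.Agent.FFDifferential.TraceVal
import Fermat.Agent.FFRiemannRoch.LSpace
import Fermat.Prelude.Def_AlgebraicCurve_DivisorPushPull

/-!
# Trace and places: the inverse different in characteristic zero

For a finite extension `F'/F` of fields over `K` (characteristic `0`) and a place `v` of `F`,
`z` has integral trace pairing at `v` against `{b | ord_w b ≥ d_w}` iff
`ord_w z + d_w > -e_w` at all `w` over `v`.
-/

set_option autoImplicit false

noncomputable section

open AlgebraicCurve FLTAgent.FFRiemannRoch

namespace FLTAgent.FFDifferential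

section

variable {K F : Type*} [Field K] [Field F] [Algebra K F]

lemma mem_nonunits_iff_ord (v : Place K F) (f : F) :
    f ∈ v.toValuationSubring.nonunits ↔ f = 0 ∨ 0 < v.ord f := by
  rw [ValuationSubring.mem_nonunits_iff_or]
  rcases eq_or_ne f 0 with rfl | hf
  · simp
  · rw [or_iff_right hf, or_iff_right hf, ← ord_nonneg_iff v (inv_ne_zero hf), v.ord_inv]
    omega

lemma exists_ord_eq_one (v : Place K F) : ∃ t : F, v.ord t = 1 := by
  obtain ⟨π, hπ⟩ := IsDiscreteValuationRing.exists_irreducible v.toValuationSubring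
  exact ⟨π, v.ord_coe_irreducible hπ⟩

/-- `Discrete K F`: every nontrivial valuation subring of `F` over `K` is a place. -/
def Discrete (K F : Type*) [Field K] [Field F] [Algebra K F] : Prop :=
  ∀ W : ValuationSubring F, (∀ a, algebraMap K F a ∈ W) → W ≠ ⊤ → IsPrincipalIdealRing W

end

variable {K F F' : Type*} [Field K] [Field F] [Field F'] [Algebra K F] [Algebra K F']
  [Algebra F F'] [IsScalarTower K F F'] [FiniteDimensional F F'] [CharZero K]

omit [CharZero K] in
lemma exists_place_of_comap (hdisc : Discrete K F') (v : Place K F) (W : ValuationSubring F')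
    (hW : W.comap (algebraMap F F') = v.toValuationSubring) :
    ∃ w : Place K F', w.toValuationSubring = W ∧ w.restrict F = v := by
  have hK : ∀ a, algebraMap K F' a ∈ W := fun a => by
    rw [IsScalarTower.algebraMap_apply K F F', ← ValuationSubring.mem_comap, hW]
    exact v.algebraMap_mem' a
  have htop : W ≠ ⊤ := fun h => v.ne_top' (by rw [← hW, h]; exact SetLike.ext fun x => by simp)
  exact ⟨⟨W, hK, htop, hdisc W hK htop⟩, rfl, Place.ext hW⟩

/-- If `y` vanishes at every place over `v`, so does its trace. -/
theorem trace_ord_pos (hdisc : Discrete K F') (v : Place K F) (y : F')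
    (hy : ∀ w : Place K F', w.restrict F = v → y = 0 ∨ 0 < w.ord y) :
    Algebra.trace F F' y = 0 ∨ 0 < v.ord (Algebra.trace F F' y) := by
  have : CharZero F := charZero_of_injective_algebraMap (algebraMap K F).injective
  rw [← mem_nonunits_iff_ord]
  refine trace_mem_nonunits _ fun W hW => ?_
  obtain ⟨w, rfl, hw⟩ := exists_place_of_comap hdisc v W hW
  exact (mem_nonunits_iff_ord w y).2 (hy w hw)

/-- The trace of `z` is integral at `v` as soon as `ord_w z > -e_w` over `v`. -/
theorem trace_ord_nonneg (hdisc : Discrete K F') (v : Place K F) (z : F')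
    (hz : ∀ w : Place K F', w.restrict F = v →
      z = 0 ∨ -(w.ramificationIndex F : ℤ) < w.ord z) :
    Algebra.trace F F' z = 0 ∨ 0 ≤ v.ord (Algebra.trace F F' z) := by
  obtain ⟨t, ht⟩ := exists_ord_eq_one v
  have ht0 : t ≠ 0 := by rintro rfl; simp at ht
  have ht0' : algebraMap F F' t ≠ 0 := by simpa using ht0
  have h := trace_ord_pos hdisc v (t • z) fun w hw => by
    rcases eq_or_ne z 0 with rfl | hz0
    · simp
    right
    have := (hz w hw).resolve_left hz0
    rw [Algebra.smul_def, w.ord_mul ht0' hz0, w.ord_restrict, hw, ht]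
    omega
  rw [map_smul, smul_eq_mul, mul_eq_zero, or_iff_right ht0] at h
  rcases h with h | h
  · exact Or.inl h
  · rcases eq_or_ne (Algebra.trace F F' z) 0 with h0 | h0
    · exact Or.inl h0
    · rw [v.ord_mul ht0 h0, ht] at h
      exact Or.inr (by omega)

variable [HasPrincipalDivisors K F']

/-- If `ord_{w₀} z + d_{w₀} ≤ -e_{w₀}`, some `b` with `ord ≥ d` over `v` pairs with `z` to a
trace with a pole at `v`. -/
theorem exists_trace_pole (hdisc : Discrete K F') (v : Place K F) (z : F') (hz : z ≠ 0)
    (d : Place K F' → ℤ) (w₀ : Place K F') (hw₀ : w₀.restrict F = v)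
    (h : w₀.ord z + d w₀ ≤ -(w₀.ramificationIndex F : ℤ)) :
    ∃ b : F', (∀ w : Place K F', w.restrict F = v → b = 0 ∨ d w ≤ w.ord b) ∧
      v.ord (Algebra.trace F F' (z * b)) < 0 := by
  classical
  have : CharZero F := charZero_of_injective_algebraMap (algebraMap K F).injective
  obtain ⟨t, ht⟩ := exists_ord_eq_one v
  have ht0 : t ≠ 0 := by rintro rfl; simp at ht
  have ht0' : algebraMap F F' t ≠ 0 := by simpa using ht0
  set u := algebraMap F F' t * z with hu
  have hu0 : u ≠ 0 := mul_ne_zero ht0' hz
  obtain ⟨b, hb⟩ := exists_approx (v.fiber F') (fun w => if w = w₀ then u⁻¹ else 0)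
    (fun w => -max (d w) (1 - w.ord u))
  have hdd : ∀ w : Place K F', w.restrict F = v → b = 0 ∨ d w ≤ w.ord b := by
    intro w hw
    have h1 := hb w (Place.mem_fiber.2 hw)
    have h2 : (if w = w₀ then u⁻¹ else 0) ∈ ball w (-d w) := by
      split_ifs with hww
      · subst hww
        refine (mem_ball_iff_ord w).2 (Or.inr ?_)
        rw [w.ord_inv, hu, w.ord_mul ht0' hz, w.ord_restrict, hw, ht]
        omega
      · exact zero_mem _
    have := add_mem (ball_mono w (by omega) h1) h2
    rwa [sub_add_cancel, mem_ball_iff_ord, neg_neg] at this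
  refine ⟨b, hdd, ?_⟩
  have key : ∀ w : Place K F', w.restrict F = v →
      u * b - (if w = w₀ then 1 else 0) ∈ w.toValuationSubring.nonunits := by
    intro w hw
    have h1 := hb w (Place.mem_fiber.2 hw)
    have hsub : u * b - (if w = w₀ then 1 else 0) = u * (b - if w = w₀ then u⁻¹ else 0) := by
      split_ifs <;> simp [mul_sub, hu0]
    rw [hsub, mem_nonunits_iff_ord]
    rcases (mem_ball_iff_ord w).1 h1 with h2 | h2
    · simp [h2]
    · rcases eq_or_ne (b - if w = w₀ then u⁻¹ else 0) 0 with h3 | h3
      · simp [h3]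
      · right
        rw [w.ord_mul hu0 h3]
        omega
  have hA : ∀ n : ℕ, n ≠ 0 → (n : F) ∉ v.toValuationSubring.nonunits := by
    intro n hn hmem
    rw [ValuationSubring.mem_nonunits_iff_or] at hmem
    rcases hmem with h0 | h0
    · exact hn (Nat.cast_eq_zero.1 h0)
    · apply h0
      have := v.algebraMap_mem' ((n : K)⁻¹)
      rwa [map_inv₀, map_natCast] at this
  have hns := trace_notMem_nonunits (y := u * b) v.toValuationSubring hA w₀.toValuationSubring
    (congrArg Place.toValuationSubring hw₀) (by simpa using key w₀ hw₀) (fun W hW hne => by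
      obtain ⟨w, rfl, hw⟩ := exists_place_of_comap hdisc v W hW
      simpa [show w ≠ w₀ from fun e => hne (e ▸ rfl)] using key w hw)
  rw [mem_nonunits_iff_ord, hu, mul_assoc, ← Algebra.smul_def, map_smul, smul_eq_mul, not_or] at hns
  obtain ⟨h1, h2⟩ := hns
  rw [v.ord_mul ht0 (right_ne_zero_of_mul h1), ht] at h2
  omega

end FLTAgent.FFDifferential
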