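import Mathlib

/-!
# The trace and valuation subrings above a given one

For a finite separable extension `F'/F` and a valuation subring `A` of `F`:
* if `y` is a nonunit at every valuation subring of `F'` above `A`, so is its trace;
* if `y ≡ 1` at one of them and `≡ 0` at all the others, and the nonzero naturals are units
  of `A`, then the trace of `y` is not a nonunit.
-/

set_option autoImplicit false

noncomputable section

open Polynomial

namespace FLTAgent.FFDifferential

variable {F F' : Type*} [Field F] [Field F']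

lemma mem_nonunits_comap {E : Type*} [Field E] (V : ValuationSubring E) (φ : F →+* E) (x : F) :
    x ∈ (V.comap φ).nonunits ↔ φ x ∈ V.nonunits := by
  rw [ValuationSubring.mem_nonunits_iff_or, ValuationSubring.mem_nonunits_iff_or,
    ValuationSubring.mem_comap, map_inv₀, map_eq_zero]

variable {E : Type*} [Field E]

/-- Every valuation subring extends along a field embedding. -/
lemma exists_comap_eq (A : ValuationSubring F) (φ : F →+* E) :
    ∃ V : ValuationSubring E, V.comap φ = A := by
  let R : Subring E := A.toSubring.map φ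
  let e : A →+* R := (φ.comp A.subtype).codRestrict R fun a => ⟨a, a.2, rfl⟩
  have he : Function.Surjective e := by
    rintro ⟨_, a, ha, rfl⟩
    exact ⟨⟨a, ha⟩, rfl⟩
  have : IsLocalRing R := .of_surjective' e he
  obtain ⟨V, hV⟩ := LocalSubring.exists_le_valuationSubring ⟨R⟩
  obtain ⟨hle, hloc⟩ := hV
  refine ⟨V, SetLike.ext fun f => ⟨fun hf => ?_, fun hf => hle ⟨f, hf, rfl⟩⟩⟩
  by_contra hfA
  have hf0 : f ≠ 0 := fun h => hfA (h.symm ▸ A.zero_mem)
  have hinv : f⁻¹ ∈ A := (A.mem_or_inv_mem f).resolve_left hfA
  have hu : IsUnit (Subring.inclusion hle ⟨φ f⁻¹, f⁻¹, hinv, rfl⟩) := by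
    refine IsUnit.of_mul_eq_one ⟨φ f, hf⟩ (Subtype.ext ?_)
    show φ f⁻¹ * φ f = 1
    rw [← map_mul, inv_mul_cancel₀ hf0, map_one]
  obtain ⟨⟨_, c, hc, rfl⟩, hmul⟩ := isUnit_iff_exists_inv.1 (hloc.map_nonunit _ hu)
  have h2 : φ (f⁻¹ * c) = φ 1 := by
    rw [map_mul, map_one]
    exact congrArg Subtype.val hmul
  have h3 := φ.injective h2
  rw [inv_mul_eq_one₀ hf0] at h3
  exact hfA (h3.symm ▸ hc)

variable [Algebra F F'] [FiniteDimensional F F'] [Algebra.IsSeparable F F']

omit [FiniteDimensional F F'] [Algebra.IsSeparable F F'] in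
lemma comap_comap_algHom {E : Type*} [Field E] [Algebra F E] (V : ValuationSubring E)
    (σ : F' →ₐ[F] E) :
    (V.comap (σ : F' →+* E)).comap (algebraMap F F') = V.comap (algebraMap F E) :=
  SetLike.ext fun x => by simp [ValuationSubring.mem_comap]

variable (A : ValuationSubring F) {y : F'}

/-- If `y` is a nonunit at every valuation subring above `A`, so is its trace. -/
theorem trace_mem_nonunits
    (hy : ∀ W : ValuationSubring F', W.comap (algebraMap F F') = A → y ∈ W.nonunits) :
    Algebra.trace F F' y ∈ A.nonunits := by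
  obtain ⟨V, hV⟩ := exists_comap_eq A (algebraMap F (AlgebraicClosure F))
  rw [← hV, mem_nonunits_comap, trace_eq_sum_embeddings (AlgebraicClosure F)]
  refine sum_mem fun σ _ => ?_
  have := hy (V.comap (σ : F' →+* AlgebraicClosure F)) ((comap_comap_algHom V σ).trans hV)
  rwa [mem_nonunits_comap] at this

/-- If `y ≡ 1` at `W₀` and is a nonunit at all other valuation subrings above `A`, and nonzero
naturals are units of `A`, then the trace of `y` is not a nonunit. -/
theorem trace_notMem_nonunits
    (hA : ∀ n : ℕ, n ≠ 0 → (n : F) ∉ A.nonunits)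
    (W₀ : ValuationSubring F') (hW₀ : W₀.comap (algebraMap F F') = A)
    (hy₀ : y - 1 ∈ W₀.nonunits)
    (hy : ∀ W : ValuationSubring F', W.comap (algebraMap F F') = A → W ≠ W₀ → y ∈ W.nonunits) :
    Algebra.trace F F' y ∉ A.nonunits := by
  classical
  set Ω := AlgebraicClosure F
  obtain ⟨V, hV⟩ := exists_comap_eq A (algebraMap F Ω)
  have hcomap : ∀ σ : F' →ₐ[F] Ω,
      (V.comap (σ : F' →+* AlgebraicClosure F)).comap (algebraMap F F') = A := fun σ => by
    exact (comap_comap_algHom V σ).trans hV
  by_cases hex : ∃ σ : F' →ₐ[F] Ω, V.comap (σ : F' →+* AlgebraicClosure F) = W₀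
  · intro htr
    let S := Finset.univ.filter fun σ : F' →ₐ[F] Ω => V.comap (σ : F' →+* AlgebraicClosure F) = W₀
    have hS : S.card ≠ 0 := by
      obtain ⟨σ, hσ⟩ := hex
      exact Finset.card_ne_zero.2 ⟨σ, by simp [S, hσ]⟩
    apply hA S.card hS
    rw [← hV, mem_nonunits_comap, map_natCast]
    rw [← hV, mem_nonunits_comap, trace_eq_sum_embeddings Ω] at htr
    have hsum : ∑ σ : F' →ₐ[F] Ω, (σ y - if σ ∈ S then 1 else 0) ∈ V.nonunits := by
      refine sum_mem fun σ _ => ?_
      by_cases hσ : V.comap (σ : F' →+* AlgebraicClosure F) = W₀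
      · rw [if_pos (by simp [S, hσ])]
        rw [← hσ, mem_nonunits_comap] at hy₀
        simpa using hy₀
      · rw [if_neg (by simp [S, hσ]), sub_zero]
        simpa [mem_nonunits_comap] using hy _ (hcomap σ) hσ
    rw [Finset.sum_sub_distrib, Finset.sum_ite_mem, Finset.univ_inter] at hsum
    simpa using sub_mem htr hsum
  · -- no embedding sees `W₀`: then `y` is a root of a polynomial congruent to `X ^ n`
    exfalso
    push Not at hex
    have hyV : ∀ σ : F' →ₐ[F] Ω, σ y ∈ V.nonunits := fun σ => by
      simpa [mem_nonunits_comap] using hy _ (hcomap σ) (hex σ)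
    set P := minpoly F y
    have hP : P.Monic := minpoly.monic (Algebra.IsIntegral.isIntegral y)
    have hsplit : (P.map (algebraMap F Ω)).Splits := IsAlgClosed.splits _
    have hprod := hsplit.eq_prod_roots_of_monic (hP.map _)
    have hroots : ∀ r ∈ (P.map (algebraMap F Ω)).roots, r ∈ V.nonunits := by
      intro r hr
      have : r ∈ P.rootSet Ω := by
        rw [Polynomial.rootSet, Finset.mem_coe, Multiset.mem_toFinset]; exact hr
      rw [← Algebra.IsAlgebraic.range_eval_eq_rootSet_minpoly (A := Ω)] at this
      obtain ⟨σ, rfl⟩ := this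
      exact hyV σ
    have hcoeff : ∀ i, i < P.natDegree → P.coeff i ∈ A.nonunits := by
      intro i hi
      rw [← hV, mem_nonunits_comap, ← coeff_map, hprod, Multiset.prod_X_sub_C_coeff]
      · have hcard : Multiset.card (P.map (algebraMap F Ω)).roots = P.natDegree := by
          rw [← hsplit.natDegree_eq_card_roots, natDegree_map]
        have hesymm : Multiset.esymm (P.map (algebraMap F Ω)).roots
            (Multiset.card (P.map (algebraMap F Ω)).roots - i) ∈ V.nonunits := by
          rw [Multiset.esymm]
          refine multiset_sum_mem _ fun x hx => ?_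
          obtain ⟨m, hm, rfl⟩ := Multiset.mem_map.1 hx
          obtain ⟨hle, hmcard⟩ := Multiset.mem_powersetCard.1 hm
          obtain ⟨r, m', rfl⟩ : ∃ r m', m = r ::ₘ m' := by
            refine Multiset.induction_on m (fun h => ?_) (fun r m' _ _ => ⟨r, m', rfl⟩) hmcard
            simp at h; omega
          rw [Multiset.prod_cons]
          have hr : V.valuation r < 1 :=
            V.mem_nonunits_iff.1 (hroots r (Multiset.mem_of_le hle (by simp)))
          have hm' : ∀ x ∈ m', x ∈ V := fun x hx => V.nonunits_le
            (hroots x (Multiset.mem_of_le hle (Multiset.mem_cons_of_mem hx)))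
          rw [ValuationSubring.mem_nonunits_iff, map_mul]
          exact mul_lt_one_of_lt_of_le hr ((V.valuation_le_one_iff _).2 (multiset_prod_mem _ hm'))
        rcases neg_one_pow_eq_or Ω
          (Multiset.card (P.map (algebraMap F Ω)).roots - i) with h | h <;> rw [h]
        · simpa using hesymm
        · simpa using hesymm
      · rw [← hsplit.natDegree_eq_card_roots, natDegree_map]; exact hi.le
    -- evaluate at `y` inside `W₀`
    have hy1 : W₀.valuation y = 1 := by
      have h1 : W₀.valuation (y - 1) < 1 := W₀.mem_nonunits_iff.1 hy₀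
      have := W₀.valuation.map_add_eq_of_lt_left (x := 1) (y := y - 1) (by simpa using h1)
      simpa using this
    have heval := minpoly.aeval F y
    rw [aeval_eq_sum_range, Finset.sum_range_succ, hP.coeff_natDegree, one_smul,
      add_eq_zero_iff_eq_neg] at heval
    have hlow : ∑ i ∈ Finset.range P.natDegree, P.coeff i • y ^ i ∈ W₀.nonunits := by
      refine sum_mem fun i hi => ?_
      have hc := hcoeff i (Finset.mem_range.1 hi)
      rw [← hW₀, mem_nonunits_comap, ValuationSubring.mem_nonunits_iff] at hc
      rw [ValuationSubring.mem_nonunits_iff, Algebra.smul_def, map_mul, map_pow, hy1, one_pow,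
        mul_one]
      exact hc
    rw [heval, ValuationSubring.mem_nonunits_iff, Valuation.map_neg, map_pow, hy1, one_pow] at hlow
    exact lt_irrefl _ hlow

end FLTAgent.FFDifferential
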