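import Fermat.Agent.FFBasic.Basic
import Fermat.Agent.FFDifferential.Order
import Fermat.Agent.FFDifferential.TraceLocal
import Mathlib.FieldTheory.IntermediateField.Adjoin.Basic

/-!
# A nonconstant function as a map to the projective line

Orders of rational functions in `x` at a place of `F`, and the places of `K(x)` below places
of `F`.
-/

set_option autoImplicit false

noncomputable section

open AlgebraicCurve Polynomial IntermediateField FLTAgent.FFRiemannRoch

namespace FLTAgent.FFDifferential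

variable {K F : Type*} [Field K] [Field F] [Algebra K F]

lemma aeval_ne_zero_of_transcendental {x : F} (hx : Transcendental K x) {p : K[X]} (hp : p ≠ 0) :
    aeval x p ≠ 0 :=
  fun h => hp (transcendental_iff.1 hx p h)

/-- At a pole of `x`, a polynomial in `x` has order `deg · ord x`. -/
lemma ord_aeval_of_neg (w : Place K F) {x : F} (hw : w.ord x < 0) {p : K[X]} (hp : p ≠ 0) :
    aeval x p ≠ 0 ∧ w.ord (aeval x p) = (p.natDegree : ℤ) * w.ord x := by
  have hx0 : x ≠ 0 := fun h => by simp [h] at hw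
  induction hn : p.natDegree generalizing p with
  | zero =>
    obtain ⟨c, rfl⟩ := natDegree_eq_zero.1 hn
    rw [aeval_C]
    exact ⟨by simpa using hp, by simp [FFBasic.ord_algebraMap]⟩
  | succ n ih =>
    have hd : p.divX.natDegree = n := by rw [natDegree_divX_eq_natDegree_tsub_one, hn]; rfl
    have hd0 : p.divX ≠ 0 := by
      rw [ne_eq, divX_eq_zero_iff]
      intro h
      rw [h, natDegree_C] at hn
      omega
    obtain ⟨h1, h2⟩ := ih hd0 hd
    have key := FFBasic.ord_add_eq_of_lt w (f := x * aeval x p.divX)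
      (g := algebraMap K F (p.coeff 0))
      (mul_ne_zero hx0 h1) (Or.inr (by
        rw [w.ord_mul hx0 h1, h2, FFBasic.ord_algebraMap]; nlinarith))
    have hp' : aeval x p = x * aeval x p.divX + algebraMap K F (p.coeff 0) := by
      conv_lhs => rw [← X_mul_divX_add p]
      rw [map_add, map_mul, aeval_X, aeval_C]
    rw [hp']
    refine ⟨key.1, key.2.trans ?_⟩
    rw [w.ord_mul hx0 h1, h2]
    push_cast
    ring

variable [IsAlgClosed K] [IsCurveOver K F]

/-- At a place where `x` is regular there is a constant congruent to it. -/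
lemma exists_const_sub_ord_pos (w : Place K F) {x : F} (hw : 0 ≤ w.ord x)
    (hx : Transcendental K x) : ∃ c : K, 0 < w.ord (x - algebraMap K F c) := by
  have hx0 : x ≠ 0 := fun h => hx (h ▸ isAlgebraic_zero)
  have hmem : x ∈ w.toValuationSubring := (ord_nonneg_iff w hx0).1 hw
  let x' : w.toValuationSubring := ⟨x, hmem⟩
  refine ⟨resEval w x', ?_⟩
  have h : x' - algebraMap K _ (resEval w x') ∈ IsLocalRing.maximalIdeal w.toValuationSubring := by
    rw [← resEval_eq_zero_iff, map_sub, resEval_algebraMap, sub_self]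
  rw [← ValuationSubring.coe_mem_nonunits_iff, mem_nonunits_iff_ord] at h
  refine h.resolve_left fun h0 => hx ?_
  rw [AddSubgroupClass.coe_sub, sub_eq_zero, Place.coe_algebraMap] at h0
  rw [show x = algebraMap K F (resEval w x') from h0]
  exact isAlgebraic_algebraMap _

/-- A polynomial in `x` at a place over `x = c`. -/
lemma ord_aeval_of_pos (w : Place K F) {x : F} (hx : Transcendental K x) {c : K}
    (hw : 0 < w.ord (x - algebraMap K F c)) {p : K[X]} (hp : p ≠ 0) :
    w.ord (aeval x p) = (p.rootMultiplicity c : ℤ) * w.ord (x - algebraMap K F c) := by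
  obtain ⟨q, hq, hqc⟩ := exists_eq_pow_rootMultiplicity_mul_and_not_dvd p hp c
  rw [dvd_iff_isRoot] at hqc
  set k := rootMultiplicity c p
  have hq0 : q ≠ 0 := fun h => hqc (by simp [h])
  have ht : x - algebraMap K F c ≠ 0 := fun h => by simp [h] at hw
  have hmem : x ∈ w.toValuationSubring := by
    have h1 := add_mem ((ord_nonneg_iff w ht).1 hw.le) (w.algebraMap_mem' c)
    rwa [sub_add_cancel] at h1
  let x' : w.toValuationSubring := ⟨x, hmem⟩
  have hres : resEval w x' = c := by
    have h1 : x' - algebraMap K _ c ∈ IsLocalRing.maximalIdeal w.toValuationSubring := by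
      rw [← ValuationSubring.coe_mem_nonunits_iff, mem_nonunits_iff_ord]
      exact Or.inr (by simpa [x'] using hw)
    rw [← resEval_eq_zero_iff, map_sub, resEval_algebraMap, sub_eq_zero] at h1
    exact h1
  have hu : IsUnit (aeval x' q) := by
    rw [← resEval_ne_zero_iff]
    have : resEval w (aeval x' q) = q.eval c := by
      rw [aeval_def, hom_eval₂, hres,
        show (resEval w).comp (algebraMap K w.toValuationSubring) = RingHom.id K from
          RingHom.ext fun a => resEval_algebraMap w a]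
      rfl
    rw [this]
    exact hqc
  have hq1 : w.ord (aeval x q) = 0 := by
    have h := aeval_algebraMap_apply F x' q
    rw [show algebraMap w.toValuationSubring F x' = x from rfl] at h
    rw [h]
    exact w.ord_coe_unit hu.unit
  conv_lhs => rw [hq]
  rw [map_mul, map_pow, map_sub, aeval_X, aeval_C,
    w.ord_mul (pow_ne_zero _ ht) (aeval_ne_zero_of_transcendental hx hq0), hq1, add_zero,
    ← zpow_natCast, w.ord_zpow]

variable {x : F} (hx : Transcendental K x)

/-- The element `p(x)` of `K(x)`. -/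
def ratEval (x : F) : K[X] →ₐ[K] K⟮x⟯ := aeval (AdjoinSimple.gen K x)

omit [IsAlgClosed K] [IsCurveOver K F] in
@[simp] lemma coe_ratEval (p : K[X]) :
    algebraMap K⟮x⟯ F (ratEval x p) = aeval x p := by
  rw [ratEval, ← aeval_algebraMap_apply, AdjoinSimple.algebraMap_gen]

include hx in
omit [IsAlgClosed K] [IsCurveOver K F] in
lemma ratEval_ne_zero {p : K[X]} (hp : p ≠ 0) : ratEval x p ≠ 0 := fun h =>
  aeval_ne_zero_of_transcendental hx hp (by rw [← coe_ratEval, h, map_zero])

omit [IsAlgClosed K] [IsCurveOver K F] in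
lemma exists_ratEval_div (r : K⟮x⟯) :
    ∃ p q : K[X], q ≠ 0 ∧ r = ratEval x p / ratEval x q := by
  obtain ⟨p, q, h⟩ := (IntermediateField.mem_adjoin_simple_iff K (r : F)).1 r.2
  rcases eq_or_ne q 0 with rfl | hq
  · refine ⟨0, 1, one_ne_zero, Subtype.ext ?_⟩
    simp [h]
  · refine ⟨p, q, hq, (algebraMap K⟮x⟯ F).injective ?_⟩
    rw [map_div₀, coe_ratEval, coe_ratEval]
    exact h

include hx in
/-- At a place over `x = c` the valuation ring of `K(x)` below it is that of `c`. -/
lemma ord_algebraMap_of_pos (w : Place K F) {c : K} (hw : 0 < w.ord (x - algebraMap K F c))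
    {p q : K[X]} (hp : p ≠ 0) (hq : q ≠ 0) :
    w.ord (algebraMap K⟮x⟯ F (ratEval x p / ratEval x q))
      = ((p.rootMultiplicity c : ℤ) - q.rootMultiplicity c) * w.ord (x - algebraMap K F c) := by
  rw [map_div₀, coe_ratEval, coe_ratEval, div_eq_mul_inv,
    w.ord_mul (aeval_ne_zero_of_transcendental hx hp)
      (inv_ne_zero (aeval_ne_zero_of_transcendental hx hq)),
    w.ord_inv, ord_aeval_of_pos w hx hw hp, ord_aeval_of_pos w hx hw hq]
  ring

variable [FiniteDimensional K⟮x⟯ F]

include hx in
lemma ramificationIndex_of_pos (w : Place K F) {c : K}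
    (hw : 0 < w.ord (x - algebraMap K F c)) :
    (w.ramificationIndex K⟮x⟯ : ℤ) = w.ord (x - algebraMap K F c) := by
  set e := w.ord (x - algebraMap K F c)
  have hX : (X - C c : K[X]) ≠ 0 := X_sub_C_ne_zero c
  have hle : (w.ramificationIndex K⟮x⟯ : ℤ) ≤ e := by
    have h1 := w.ramificationIndex_le_ord (F := K⟮x⟯) (ratEval_ne_zero hx hX)
      (by rw [coe_ratEval, map_sub, aeval_X, aeval_C]; exact hw)
    rwa [coe_ratEval, map_sub, aeval_X, aeval_C] at h1
  obtain ⟨r, hr0, hr⟩ := w.exists_ord_eq_ramificationIndex (F := K⟮x⟯)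
  obtain ⟨p, q, hq, rfl⟩ := exists_ratEval_div r
  have hp : p ≠ 0 := by rintro rfl; simp at hr0
  rw [ord_algebraMap_of_pos hx w hw hp hq] at hr
  have := w.ramificationIndex_pos (F := K⟮x⟯)
  rcases le_or_gt ((p.rootMultiplicity c : ℤ) - q.rootMultiplicity c) 0 with h | h
  · nlinarith
  · nlinarith

include hx in
omit [IsAlgClosed K] [IsCurveOver K F] in
lemma ramificationIndex_of_neg (w : Place K F) (hw : w.ord x < 0) :
    (w.ramificationIndex K⟮x⟯ : ℤ) = -w.ord x := by
  have hle : (w.ramificationIndex K⟮x⟯ : ℤ) ≤ -w.ord x := by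
    have h1 := w.ramificationIndex_le_ord (F := K⟮x⟯)
      (inv_ne_zero (ratEval_ne_zero hx (X_ne_zero (R := K))))
      (by rw [map_inv₀, coe_ratEval, aeval_X, w.ord_inv]; omega)
    rwa [map_inv₀, coe_ratEval, aeval_X, w.ord_inv] at h1
  obtain ⟨r, hr0, hr⟩ := w.exists_ord_eq_ramificationIndex (F := K⟮x⟯)
  obtain ⟨p, q, hq, rfl⟩ := exists_ratEval_div r
  have hp : p ≠ 0 := by rintro rfl; simp at hr0
  rw [map_div₀, coe_ratEval, coe_ratEval, div_eq_mul_inv,
    w.ord_mul (ord_aeval_of_neg w hw hp).1 (inv_ne_zero (ord_aeval_of_neg w hw hq).1),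
    w.ord_inv, (ord_aeval_of_neg w hw hp).2, (ord_aeval_of_neg w hw hq).2] at hr
  have := w.ramificationIndex_pos (F := K⟮x⟯)
  have hr' : ((q.natDegree : ℤ) - p.natDegree) * -w.ord x = w.ramificationIndex K⟮x⟯ := by
    rw [← hr]; ring
  rcases le_or_gt ((q.natDegree : ℤ) - p.natDegree) 0 with h | h
  · nlinarith
  · nlinarith

include hx in
/-- Places over the same point of the line lie over the same place of `K(x)`. -/
lemma restrict_eq_of_pos {w w' : Place K F} {c : K} (hw : 0 < w.ord (x - algebraMap K F c))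
    (hw' : 0 < w'.ord (x - algebraMap K F c)) : w'.restrict K⟮x⟯ = w.restrict K⟮x⟯ := by
  refine Place.ext (SetLike.ext fun r => ?_)
  rw [Place.mem_restrict_iff, Place.mem_restrict_iff]
  rcases eq_or_ne r 0 with rfl | hr
  · simp
  obtain ⟨p, q, hq, rfl⟩ := exists_ratEval_div r
  have hp : p ≠ 0 := by rintro rfl; simp at hr
  have hne : algebraMap K⟮x⟯ F (ratEval x p / ratEval x q) ≠ 0 := by simpa using hr
  rw [← ord_nonneg_iff w hne, ← ord_nonneg_iff w' hne, ord_algebraMap_of_pos hx w hw hp hq,
    ord_algebraMap_of_pos hx w' hw' hp hq]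
  constructor <;> intro h
  · exact mul_nonneg (nonneg_of_mul_nonneg_left h hw') hw.le
  · exact mul_nonneg (nonneg_of_mul_nonneg_left h hw) hw'.le

omit [IsAlgClosed K] [IsCurveOver K F] in
lemma pos_of_restrict_eq {w w' : Place K F} {c : K}
    (h : w'.restrict K⟮x⟯ = w.restrict K⟮x⟯) (hw : 0 < w.ord (x - algebraMap K F c)) :
    0 < w'.ord (x - algebraMap K F c) := by
  have h1 := w.ord_restrict (F := K⟮x⟯) (ratEval x (X - C c))
  have h2 := w'.ord_restrict (F := K⟮x⟯) (ratEval x (X - C c))
  rw [coe_ratEval, map_sub, aeval_X, aeval_C] at h1 h2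
  rw [h] at h2
  have := w.ramificationIndex_pos (F := K⟮x⟯)
  have := w'.ramificationIndex_pos (F := K⟮x⟯)
  rw [h2]
  rw [h1] at hw
  exact mul_pos (by omega) (pos_of_mul_pos_right hw (by omega))

omit [IsAlgClosed K] [IsCurveOver K F] in
lemma neg_of_restrict_eq {w w' : Place K F} (h : w'.restrict K⟮x⟯ = w.restrict K⟮x⟯)
    (hw : w.ord x < 0) : w'.ord x < 0 := by
  have h1 := w.ord_restrict (F := K⟮x⟯) (ratEval x X)
  have h2 := w'.ord_restrict (F := K⟮x⟯) (ratEval x X)
  rw [coe_ratEval, aeval_X] at h1 h2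
  rw [h] at h2
  have := w.ramificationIndex_pos (F := K⟮x⟯)
  have := w'.ramificationIndex_pos (F := K⟮x⟯)
  rw [h2]
  rw [h1] at hw
  exact mul_neg_of_pos_of_neg (by omega) (neg_of_mul_neg_right hw (by omega))

end FLTAgent.FFDifferential
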